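/-
S26 (row 25), package (E): the scheme side of `#A[n](K) = deg [n]`.
Owner: helper14.  Interface only (statements as `Prop`s); proofs in `S26/E/H*_*.lean`.

Setting of the frozen statement: `K` algebraically closed, `f : A ⟶ Spec K`, `L : RelativeGroupLaw K f`
commutative, `AbelianSchemePropertyBundle K f` (smooth, proper, connected fibres), `(n : K) ≠ 0`.
`[n] := L.schemeNsmul n : A ⟶ A`.
-/
import Mathlib
import Fermat.Prelude.Def_JacJ1Iface
import Fermat.Prelude.Def_GoodReductionJacobian_RelativeGroupLawKernel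

set_option autoImplicit false

open CategoryTheory CategoryTheory.Limits AlgebraicGeometry NeronModelInfra GoodReductionJacobian

universe u

namespace Fermat.Agent.S26.E

/-- The hypotheses of the frozen S26 on `(K, A, f, L)` (without the dimension and without `n`). -/
structure IsAV (K : Type u) [Field K] {A : Scheme.{u}} (f : A ⟶ Spec (CommRingCat.of K))
    (L : RelativeGroupLaw K f) : Prop where
  algClosed : IsAlgClosed K
  comm : L.IsCommutative
  bundle : AbelianSchemePropertyBundle K f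

/-- (E-ETALE) multiplication by an invertible `n` is étale. -/
def Stmt_E_ETALE : Prop :=
  ∀ (K : Type u) [Field K] {A : Scheme.{u}} (f : A ⟶ Spec (CommRingCat.of K))
    (L : RelativeGroupLaw K f), IsAV K f L → ∀ (n : ℕ), (n : K) ≠ 0 → Etale (L.schemeNsmul n)

/-- (E-FIN) multiplication by an invertible `n` is finite. -/
def Stmt_E_FIN : Prop :=
  ∀ (K : Type u) [Field K] {A : Scheme.{u}} (f : A ⟶ Spec (CommRingCat.of K))
    (L : RelativeGroupLaw K f), IsAV K f L → ∀ (n : ℕ), (n : K) ≠ 0 → IsFinite (L.schemeNsmul n)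

/-- (E-SURJ) multiplication by an invertible `n` is surjective. -/
def Stmt_E_SURJ : Prop :=
  ∀ (K : Type u) [Field K] {A : Scheme.{u}} (f : A ⟶ Spec (CommRingCat.of K))
    (L : RelativeGroupLaw K f), IsAV K f L → ∀ (n : ℕ), (n : K) ≠ 0 → Surjective (L.schemeNsmul n)

/-- (E-COUNT) the number of `n`-torsion `K`-points is the rank of the finite flat morphism `[n]`
at every point `y` of `A`. -/
def Stmt_E_COUNT : Prop :=
  ∀ (K : Type u) [Field K] {A : Scheme.{u}} (f : A ⟶ Spec (CommRingCat.of K))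
    (L : RelativeGroupLaw K f), IsAV K f L → ∀ (n : ℕ), (n : K) ≠ 0 → ∀ y : A,
    Nat.card {x : SchemeHomOver (𝟙 (Spec (CommRingCat.of K))) f //
        L.IsTorsionPoint (𝟙 (Spec (CommRingCat.of K))) n x} = (L.schemeNsmul n).finrank y

/-! ### Sub-leaves (each can be proved independently of E-ETALE) -/

/-- (E-FIN-of) `[n]` étale ⟹ `[n]` finite (proper by cancellation + locally quasi-finite, then
`IsFinite.of_isProper_of_locallyQuasiFinite`). No hypothesis on `n`. -/
def Stmt_E_FIN_of : Prop :=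
  ∀ (K : Type u) [Field K] {A : Scheme.{u}} (f : A ⟶ Spec (CommRingCat.of K))
    (L : RelativeGroupLaw K f), IsAV K f L → ∀ (n : ℕ), Etale (L.schemeNsmul n) →
    IsFinite (L.schemeNsmul n)

/-- (E-SURJ-of) `[n]` étale and finite ⟹ surjective (open and closed image, `A` connected). -/
def Stmt_E_SURJ_of : Prop :=
  ∀ (K : Type u) [Field K] {A : Scheme.{u}} (f : A ⟶ Spec (CommRingCat.of K))
    (L : RelativeGroupLaw K f), IsAV K f L → ∀ (n : ℕ), Etale (L.schemeNsmul n) →
    IsFinite (L.schemeNsmul n) → Surjective (L.schemeNsmul n)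

/-- (E-COUNT-of) `[n]` étale and finite ⟹ the number of `n`-torsion `K`-points is the rank of `[n]`
at every point (fibre over the unit section is finite étale over the algebraically closed `K`;
`finrank` is locally constant and `A` is connected). -/
def Stmt_E_COUNT_of : Prop :=
  ∀ (K : Type u) [Field K] {A : Scheme.{u}} (f : A ⟶ Spec (CommRingCat.of K))
    (L : RelativeGroupLaw K f), IsAV K f L → ∀ (n : ℕ), Etale (L.schemeNsmul n) →
    IsFinite (L.schemeNsmul n) → ∀ y : A,
    Nat.card {x : SchemeHomOver (𝟙 (Spec (CommRingCat.of K))) f //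
        L.IsTorsionPoint (𝟙 (Spec (CommRingCat.of K))) n x} = (L.schemeNsmul n).finrank y

/-- (E-PSURJ-of) `[n]` finite and surjective ⟹ `x ↦ n • x` is surjective on `K`-points
(the fibre over a `K`-point is a nonempty finite `K`-scheme, `K` algebraically closed). -/
def Stmt_E_PSURJ_of : Prop :=
  ∀ (K : Type u) [Field K] {A : Scheme.{u}} (f : A ⟶ Spec (CommRingCat.of K))
    (L : RelativeGroupLaw K f), IsAV K f L → ∀ (n : ℕ), IsFinite (L.schemeNsmul n) →
    Surjective (L.schemeNsmul n) →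
    ∀ y : SchemeHomOver (𝟙 (Spec (CommRingCat.of K))) f,
      ∃ x : SchemeHomOver (𝟙 (Spec (CommRingCat.of K))) f,
        L.nsmul (𝟙 (Spec (CommRingCat.of K))) n x = y

/-- (E-PSURJ) `x ↦ n • x` is surjective on `K`-points for `n` invertible in `K`
(= `H95.NsmulSurj L (𝟙 _) n`). -/
def Stmt_E_PSURJ : Prop :=
  ∀ (K : Type u) [Field K] {A : Scheme.{u}} (f : A ⟶ Spec (CommRingCat.of K))
    (L : RelativeGroupLaw K f), IsAV K f L → ∀ (n : ℕ), (n : K) ≠ 0 →
    ∀ y : SchemeHomOver (𝟙 (Spec (CommRingCat.of K))) f,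
      ∃ x : SchemeHomOver (𝟙 (Spec (CommRingCat.of K))) f,
        L.nsmul (𝟙 (Spec (CommRingCat.of K))) n x = y

theorem stmt_E_FIN_of_parts (h1 : Stmt_E_ETALE.{u}) (h2 : Stmt_E_FIN_of.{u}) : Stmt_E_FIN.{u} :=
  fun K _ _ f L hL n hn => h2 K f L hL n (h1 K f L hL n hn)

theorem stmt_E_SURJ_of_parts (h1 : Stmt_E_ETALE.{u}) (h2 : Stmt_E_FIN_of.{u})
    (h3 : Stmt_E_SURJ_of.{u}) : Stmt_E_SURJ.{u} :=
  fun K _ _ f L hL n hn => h3 K f L hL n (h1 K f L hL n hn) (h2 K f L hL n (h1 K f L hL n hn))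

theorem stmt_E_COUNT_of_parts (h1 : Stmt_E_ETALE.{u}) (h2 : Stmt_E_FIN_of.{u})
    (h3 : Stmt_E_COUNT_of.{u}) : Stmt_E_COUNT.{u} :=
  fun K _ _ f L hL n hn y =>
    h3 K f L hL n (h1 K f L hL n hn) (h2 K f L hL n (h1 K f L hL n hn)) y

theorem stmt_E_PSURJ_of_parts (h1 : Stmt_E_ETALE.{u}) (h2 : Stmt_E_FIN_of.{u})
    (h3 : Stmt_E_SURJ_of.{u}) (h4 : Stmt_E_PSURJ_of.{u}) : Stmt_E_PSURJ.{u} :=
  fun K _ _ f L hL n hn y =>
    h4 K f L hL n (h2 K f L hL n (h1 K f L hL n hn))
      (h3 K f L hL n (h1 K f L hL n hn) (h2 K f L hL n (h1 K f L hL n hn))) y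

end Fermat.Agent.S26.E
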