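/-
S26 (E), helper14: generalities on `T`-points of a relative group law.
-/
import Mathlib
import Fermat.Prelude.Def_JacJ1Iface
import Fermat.Prelude.Def_GoodReductionJacobian_RelativeGroupLawKernel

set_option autoImplicit false

open CategoryTheory CategoryTheory.Limits AlgebraicGeometry NeronModelInfra GoodReductionJacobian

universe u

namespace Fermat.Agent.S26.E.H14

variable {K : Type u} [CommRing K] {A : Scheme.{u}} {f : A ⟶ Spec (CommRingCat.of K)}
variable (L : RelativeGroupLaw K f)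

/-- The unit section `Spec K ⟶ A`. -/
noncomputable def unitHom : Spec (CommRingCat.of K) ⟶ A :=
  (L.one (𝟙 (Spec (CommRingCat.of K)))).1

@[reassoc]
theorem unitHom_comp : unitHom L ≫ f = 𝟙 _ :=
  (L.one (𝟙 (Spec (CommRingCat.of K)))).2

theorem one_val {T : Scheme.{u}} (t : T ⟶ Spec (CommRingCat.of K)) :
    (L.one t).1 = t ≫ unitHom L := by
  have h := L.one_natural (𝟙 (Spec (CommRingCat.of K))) t t (Category.comp_id t)
  exact (congrArg Subtype.val h).symm

theorem comp_idPoint {T : Scheme.{u}} (t : T ⟶ Spec (CommRingCat.of K)) (x : SchemeHomOver t f) :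
    schemeHomOverComp x.1 x.2 (RelativeGroupLaw.idPoint (f := f)) = x :=
  Subtype.ext (Category.comp_id _)

theorem nsmul_val {T : Scheme.{u}} (t : T ⟶ Spec (CommRingCat.of K)) (n : ℕ)
    (x : SchemeHomOver t f) : (L.nsmul t n x).1 = x.1 ≫ L.schemeNsmul n := by
  have h := L.nsmul_natural f t x.1 x.2 n RelativeGroupLaw.idPoint
  rw [comp_idPoint] at h
  exact (congrArg Subtype.val h).symm

theorem inv_natural {T T' : Scheme.{u}} (t : T ⟶ Spec (CommRingCat.of K))
    (t' : T' ⟶ Spec (CommRingCat.of K)) (ψ : T' ⟶ T) (hψ : ψ ≫ t = t') (x : SchemeHomOver t f) :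
    schemeHomOverComp ψ hψ (L.inv t x) = L.inv t' (schemeHomOverComp ψ hψ x) := by
  letI := L.pointGroup t'
  have h1 : L.mul t' (schemeHomOverComp ψ hψ (L.inv t x)) (schemeHomOverComp ψ hψ x) = L.one t' := by
    rw [← L.mul_natural t t' ψ hψ, L.inv_mul_cancel, L.one_natural]
  have h2 : (schemeHomOverComp ψ hψ (L.inv t x)) * (schemeHomOverComp ψ hψ x) = 1 := h1
  exact eq_inv_of_mul_eq_one_left h2

/-- `n • (x * y) = n • x * n • y` for a commutative law. -/
theorem nsmul_mul (hc : L.IsCommutative) {T : Scheme.{u}} (t : T ⟶ Spec (CommRingCat.of K))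
    (n : ℕ) (x y : SchemeHomOver t f) :
    L.nsmul t n (L.mul t x y) = L.mul t (L.nsmul t n x) (L.nsmul t n y) := by
  induction n with
  | zero => exact (L.one_mul t _).symm
  | succ n ih =>
    rw [RelativeGroupLaw.nsmul_succ, RelativeGroupLaw.nsmul_succ, RelativeGroupLaw.nsmul_succ, ih]
    rw [L.mul_assoc, L.mul_assoc]
    congr 1
    rw [← L.mul_assoc, ← L.mul_assoc]
    congr 1
    exact hc t _ _

theorem nsmul_inv (hc : L.IsCommutative) {T : Scheme.{u}} (t : T ⟶ Spec (CommRingCat.of K))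
    (n : ℕ) (x : SchemeHomOver t f) :
    L.nsmul t n (L.inv t x) = L.inv t (L.nsmul t n x) := by
  letI := L.pointGroup t
  have h : L.mul t (L.nsmul t n (L.inv t x)) (L.nsmul t n x) = L.one t := by
    rw [← nsmul_mul L hc, L.inv_mul_cancel, RelativeGroupLaw.nsmul_unit]
  have h2 : (L.nsmul t n (L.inv t x)) * (L.nsmul t n x) = 1 := h
  exact eq_inv_of_mul_eq_one_left h2

end Fermat.Agent.S26.E.H14
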