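/-
S26 (E), helper14: dictionary "points of `A` with values in `Spec R` landing in an affine open `U`"
↔ ring homomorphisms `Γ(A, U) ⟶ R`; thickenings are surjective on points.
-/
import Mathlib

set_option autoImplicit false

open CategoryTheory CategoryTheory.Limits AlgebraicGeometry

universe u

namespace Fermat.Agent.S26.E.H14

variable {A : Scheme.{u}} {U : A.Opens} (hU : IsAffineOpen U)

/-- The `Spec R`-valued point of `A` attached to a ring homomorphism `Γ(A, U) ⟶ R`. -/
noncomputable def pt {R : CommRingCat.{u}} (ζ : Γ(A, U) ⟶ R) : Spec R ⟶ A :=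
  Spec.map ζ ≫ hU.fromSpec

theorem pt_inj {R : CommRingCat.{u}} {ζ ζ' : Γ(A, U) ⟶ R} (h : pt hU ζ = pt hU ζ') : ζ = ζ' := by
  unfold pt at h
  rw [cancel_mono] at h
  exact Spec.map_injective h

theorem pt_comp {R R' : CommRingCat.{u}} (ζ : Γ(A, U) ⟶ R) (ψ : R ⟶ R') :
    pt hU (ζ ≫ ψ) = Spec.map ψ ≫ pt hU ζ := by
  unfold pt
  rw [Spec.map_comp, Category.assoc]

theorem range_pt {R : CommRingCat.{u}} (ζ : Γ(A, U) ⟶ R) : Set.range (pt hU ζ) ⊆ (U : Set A) := by
  rintro _ ⟨x, rfl⟩
  have : (pt hU ζ) x = hU.fromSpec (Spec.map ζ x) := by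
    unfold pt
    rfl
  rw [this, ← hU.range_fromSpec]
  exact ⟨_, rfl⟩

theorem exists_pt {R : CommRingCat.{u}} (z : Spec R ⟶ A) (h : Set.range z ⊆ (U : Set A)) :
    ∃ ζ : Γ(A, U) ⟶ R, z = pt hU ζ := by
  have h' : Set.range z ⊆ Set.range hU.fromSpec := by
    rw [hU.range_fromSpec]; exact h
  refine ⟨Spec.preimage (IsOpenImmersion.lift hU.fromSpec z h'), ?_⟩
  unfold pt
  rw [Spec.map_preimage, IsOpenImmersion.lift_fac]

/-- A surjection of rings whose kernel consists of nilpotent elements is surjective on spectra. -/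
theorem specMap_surjective {R S : CommRingCat.{u}} (φ : R ⟶ S) (hφ : Function.Surjective φ)
    (hnil : ∀ x : R, φ x = 0 → IsNilpotent x) : Function.Surjective (Spec.map φ) := by
  intro p
  have h1 := _root_.range_comap_of_surjective _ φ.hom hφ
  have h2 : PrimeSpectrum.zeroLocus (RingHom.ker φ.hom : Set R) = Set.univ := by
    rw [PrimeSpectrum.zeroLocus_eq_univ_iff]
    intro x hx
    exact (mem_nilradical).2 (hnil x hx)
  have h3 : p ∈ Set.range (PrimeSpectrum.comap φ.hom) := by
    rw [h1, h2]; trivial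
  obtain ⟨q, hq⟩ := h3
  exact ⟨q, hq⟩

/-- If `z` restricted along a morphism surjective on points lands in `U`, so does `z`. -/
theorem range_subset_of_comp {T T' : Scheme.{u}} (i : T' ⟶ T) (hi : Function.Surjective i)
    (z : T ⟶ A) (V : Set A) (h : Set.range (i ≫ z) ⊆ V) : Set.range z ⊆ V := by
  rintro _ ⟨x, rfl⟩
  obtain ⟨y, rfl⟩ := hi x
  exact h ⟨y, rfl⟩

end Fermat.Agent.S26.E.H14
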