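/-
S26 (E), helper14: the ring constructions for the Eckmann–Hilton argument.
`triple φ = R ×_S R ×_S R` for a surjection `φ : R → S` with square-zero kernel, with its three
projections, the diagonal, and the ring homomorphism `(r₀, r₁, r₂) ↦ r₁ + r₂ - r₀`;
`affHom ε ζ c = ε + c (ζ - ε)` for two homomorphisms congruent modulo a square-zero ideal.
-/
import Mathlib

set_option autoImplicit false

universe u

namespace Fermat.Agent.S26.E.H14

section Ring

variable {R S O : Type u} [CommRing R] [CommRing S] [CommRing O] (φ : R →+* S)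

/-- `x y ∈ ker φ → x * y = 0`. -/
def SqZero : Prop := ∀ x y : R, φ x = 0 → φ y = 0 → x * y = 0

theorem sqZero_of_ker_sq (h : RingHom.ker φ ^ 2 = ⊥) : SqZero φ := by
  intro x y hx hy
  have h1 : x * y ∈ RingHom.ker φ ^ 2 := by
    rw [pow_two]
    exact Ideal.mul_mem_mul ((RingHom.mem_ker).2 hx) ((RingHom.mem_ker).2 hy)
  rw [h] at h1
  exact (Ideal.mem_bot).1 h1

theorem SqZero.isNilpotent {φ : R →+* S} (h : SqZero φ) (x : R) (hx : φ x = 0) : IsNilpotent x :=
  ⟨2, by rw [pow_two]; exact h x x hx hx⟩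

/-- The triple fibre product `R ×_S R ×_S R`. -/
def triple : Subring (R × R × R) where
  carrier := {x | φ x.1 = φ x.2.1 ∧ φ x.1 = φ x.2.2}
  mul_mem' := by
    rintro ⟨a0, a1, a2⟩ ⟨b0, b1, b2⟩ ⟨ha1, ha2⟩ ⟨hb1, hb2⟩
    simp only [Set.mem_ofPred_eq, Prod.mk_mul_mk, map_mul] at *
    exact ⟨by rw [ha1, hb1], by rw [ha2, hb2]⟩
  one_mem' := by simp
  add_mem' := by
    rintro ⟨a0, a1, a2⟩ ⟨b0, b1, b2⟩ ⟨ha1, ha2⟩ ⟨hb1, hb2⟩
    simp only [Set.mem_ofPred_eq, Prod.mk_add_mk, map_add] at *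
    exact ⟨by rw [ha1, hb1], by rw [ha2, hb2]⟩
  zero_mem' := by simp
  neg_mem' := by
    rintro ⟨a0, a1, a2⟩ ⟨ha1, ha2⟩
    simp only [Set.mem_ofPred_eq, Prod.neg_mk, map_neg] at *
    exact ⟨by rw [ha1], by rw [ha2]⟩

theorem mem_triple {x : R × R × R} : x ∈ triple φ ↔ φ x.1 = φ x.2.1 ∧ φ x.1 = φ x.2.2 := Iff.rfl

/-- The projections. -/
def pr0 : triple φ →+* R := (RingHom.fst R (R × R)).comp (triple φ).subtype
def pr1 : triple φ →+* R :=
  ((RingHom.fst R R).comp (RingHom.snd R (R × R))).comp (triple φ).subtype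
def pr2 : triple φ →+* R :=
  ((RingHom.snd R R).comp (RingHom.snd R (R × R))).comp (triple φ).subtype

@[simp] theorem pr0_apply (x : triple φ) : pr0 φ x = x.1.1 := rfl
@[simp] theorem pr1_apply (x : triple φ) : pr1 φ x = x.1.2.1 := rfl
@[simp] theorem pr2_apply (x : triple φ) : pr2 φ x = x.1.2.2 := rfl

theorem triple_ext {x y : triple φ} (h0 : pr0 φ x = pr0 φ y) (h1 : pr1 φ x = pr1 φ y)
    (h2 : pr2 φ x = pr2 φ y) : x = y := by
  apply Subtype.ext
  exact Prod.ext h0 (Prod.ext h1 h2)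

theorem pr0_surjective : Function.Surjective (pr0 φ) := fun r =>
  ⟨⟨(r, r, r), ⟨rfl, rfl⟩⟩, rfl⟩

/-- The diagonal. -/
def diag : R →+* triple φ :=
  ((RingHom.id R).prod ((RingHom.id R).prod (RingHom.id R))).codRestrict (triple φ)
    (fun _ => ⟨rfl, rfl⟩)

@[simp] theorem pr0_diag (r : R) : pr0 φ (diag φ r) = r := rfl
@[simp] theorem pr1_diag (r : R) : pr1 φ (diag φ r) = r := rfl
@[simp] theorem pr2_diag (r : R) : pr2 φ (diag φ r) = r := rfl

/-- A triple of homomorphisms congruent modulo `ker φ`. -/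
def tripleLift (a b c : O →+* R) (hab : ∀ x, φ (a x) = φ (b x)) (hac : ∀ x, φ (a x) = φ (c x)) :
    O →+* triple φ :=
  (a.prod (b.prod c)).codRestrict (triple φ) (fun x => ⟨hab x, hac x⟩)

@[simp] theorem pr0_tripleLift (a b c : O →+* R) (hab hac) (x : O) :
    pr0 φ (tripleLift φ a b c hab hac x) = a x := rfl
@[simp] theorem pr1_tripleLift (a b c : O →+* R) (hab hac) (x : O) :
    pr1 φ (tripleLift φ a b c hab hac x) = b x := rfl
@[simp] theorem pr2_tripleLift (a b c : O →+* R) (hab hac) (x : O) :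
    pr2 φ (tripleLift φ a b c hab hac x) = c x := rfl

/-- The kernel of `pr0` is square-zero. -/
theorem sqZero_pr0 (h : SqZero φ) : SqZero (pr0 φ) := by
  rintro ⟨⟨a0, a1, a2⟩, ha1, ha2⟩ ⟨⟨b0, b1, b2⟩, hb1, hb2⟩ ha hb
  simp only [pr0_apply] at ha hb
  subst ha hb
  simp only [map_zero] at ha1 ha2 hb1 hb2
  apply triple_ext
  · simp
  · simp only [pr1_apply]
    exact h a1 b1 ha1.symm hb1.symm
  · simp only [pr2_apply]
    exact h a2 b2 ha2.symm hb2.symm

/-- `(r₀, r₁, r₂) ↦ r₁ + r₂ - r₀` is a ring homomorphism when `ker φ` is square-zero. -/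
def sumHom (h : SqZero φ) : triple φ →+* R where
  toFun x := x.1.2.1 + x.1.2.2 - x.1.1
  map_one' := by simp
  map_zero' := by simp
  map_add' := by
    rintro ⟨⟨a0, a1, a2⟩, _⟩ ⟨⟨b0, b1, b2⟩, _⟩
    simp only [Subring.coe_add, Prod.mk_add_mk]
    ring
  map_mul' := by
    rintro ⟨⟨a0, a1, a2⟩, ha1, ha2⟩ ⟨⟨b0, b1, b2⟩, hb1, hb2⟩
    simp only [Subring.coe_mul, Prod.mk_mul_mk]
    simp only at ha1 ha2 hb1 hb2
    have e1 : (a1 - a0) * (b2 - b0) = 0 :=
      h _ _ (by rw [map_sub, ha1, sub_self]) (by rw [map_sub, hb2, sub_self])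
    have e2 : (a2 - a0) * (b1 - b0) = 0 :=
      h _ _ (by rw [map_sub, ha2, sub_self]) (by rw [map_sub, hb1, sub_self])
    linear_combination (-1 : R) * e1 - e2

@[simp] theorem sumHom_apply (h : SqZero φ) (x : triple φ) :
    sumHom φ h x = pr1 φ x + pr2 φ x - pr0 φ x := rfl

@[simp] theorem sumHom_diag (h : SqZero φ) (r : R) : sumHom φ h (diag φ r) = r := by
  rw [sumHom_apply, pr0_diag, pr1_diag, pr2_diag]
  ring

/-- `ε + c (ζ - ε)` for two homomorphisms with `(ζ - ε)(a) (ζ - ε)(b) = 0`. -/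
def affHom (ε ζ : O →+* R) (c : R) (h : ∀ a b, (ζ a - ε a) * (ζ b - ε b) = 0) : O →+* R where
  toFun a := ε a + c * (ζ a - ε a)
  map_one' := by simp
  map_zero' := by simp
  map_add' a b := by simp only [map_add]; ring
  map_mul' a b := by
    simp only [map_mul]
    have e := h a b
    linear_combination (c - c ^ 2) * e

@[simp] theorem affHom_apply (ε ζ : O →+* R) (c : R) (h) (a : O) :
    affHom ε ζ c h a = ε a + c * (ζ a - ε a) := rfl

theorem affHom_one (ε ζ : O →+* R) (h) : affHom ε ζ 1 h = ζ := by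
  ext a; simp

theorem affHom_zero (ε ζ : O →+* R) (h) : affHom ε ζ 0 h = ε := by
  ext a; simp

theorem affHom_sqZero (ε ζ : O →+* R) (c : R) (h) (a b : O) :
    (affHom ε ζ c h a - ε a) * (affHom ε ζ c h b - ε b) = 0 := by
  simp only [affHom_apply, add_sub_cancel_left]
  have e := h a b
  linear_combination c ^ 2 * e

theorem affHom_affHom (ε ζ : O →+* R) (c d : R) (h) :
    affHom ε (affHom ε ζ c h) d (affHom_sqZero ε ζ c h) = affHom ε ζ (d * c) h := by
  ext a
  simp only [affHom_apply, add_sub_cancel_left]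
  ring

end Ring

end Fermat.Agent.S26.E.H14
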