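/-
S26 (E), helper14: the Eckmann–Hilton argument.
For a surjection `φ : R ⟶ S` with square-zero kernel and points `z z' : Spec R ⟶ A` which reduce to
the unit section modulo `ker φ`, the product `z * z'` is given by the ring homomorphism
`ζ + ζ' - ε`; hence `n • z` is given by `ε + n (ζ - ε)`.
-/
import Fermat.Agent.S26.E.H14_Pts
import Fermat.Agent.S26.E.H14_Dict
import Fermat.Agent.S26.E.H14_Ring

set_option autoImplicit false

open CategoryTheory CategoryTheory.Limits AlgebraicGeometry NeronModelInfra GoodReductionJacobian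

universe u

namespace Fermat.Agent.S26.E.H14

section Cat

variable {R S O : CommRingCat.{u}} (φ : R ⟶ S)

/-- `R ×_S R ×_S R` as an object of `CommRingCat`. -/
abbrev T3 : CommRingCat.{u} := CommRingCat.of (triple φ.hom)

abbrev p0 : T3 φ ⟶ R := CommRingCat.ofHom (pr0 φ.hom)
abbrev p1 : T3 φ ⟶ R := CommRingCat.ofHom (pr1 φ.hom)
abbrev p2 : T3 φ ⟶ R := CommRingCat.ofHom (pr2 φ.hom)
abbrev dg : R ⟶ T3 φ := CommRingCat.ofHom (diag φ.hom)
abbrev sm (h : SqZero φ.hom) : T3 φ ⟶ R := CommRingCat.ofHom (sumHom φ.hom h)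

abbrev lift3 (a b c : O ⟶ R) (hab : ∀ x, φ.hom (a.hom x) = φ.hom (b.hom x))
    (hac : ∀ x, φ.hom (a.hom x) = φ.hom (c.hom x)) : O ⟶ T3 φ :=
  CommRingCat.ofHom (tripleLift φ.hom a.hom b.hom c.hom hab hac)

theorem dg_p0 : dg φ ≫ p0 φ = 𝟙 R := by ext x; rfl
theorem dg_p1 : dg φ ≫ p1 φ = 𝟙 R := by ext x; rfl
theorem dg_p2 : dg φ ≫ p2 φ = 𝟙 R := by ext x; rfl
theorem dg_sm (h : SqZero φ.hom) : dg φ ≫ sm φ h = 𝟙 R := by
  ext x
  exact sumHom_diag φ.hom h x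

theorem lift3_p0 (a b c : O ⟶ R) (hab hac) : lift3 φ a b c hab hac ≫ p0 φ = a := by ext x; rfl
theorem lift3_p1 (a b c : O ⟶ R) (hab hac) : lift3 φ a b c hab hac ≫ p1 φ = b := by ext x; rfl
theorem lift3_p2 (a b c : O ⟶ R) (hab hac) : lift3 φ a b c hab hac ≫ p2 φ = c := by ext x; rfl

theorem hom_ext3 {a b : O ⟶ T3 φ} (h0 : a ≫ p0 φ = b ≫ p0 φ) (h1 : a ≫ p1 φ = b ≫ p1 φ)
    (h2 : a ≫ p2 φ = b ≫ p2 φ) : a = b := by
  apply CommRingCat.hom_ext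
  apply RingHom.ext
  intro x
  apply triple_ext φ.hom
  · exact congrArg (fun g : O ⟶ R => g.hom x) h0
  · exact congrArg (fun g : O ⟶ R => g.hom x) h1
  · exact congrArg (fun g : O ⟶ R => g.hom x) h2

/-- Morphisms from `Spec (T3 φ)` to an affine scheme are determined by the three projections. -/
theorem spec_hom_ext3 {B : CommRingCat.{u}} {g g' : Spec (T3 φ) ⟶ Spec B}
    (h0 : Spec.map (p0 φ) ≫ g = Spec.map (p0 φ) ≫ g')
    (h1 : Spec.map (p1 φ) ≫ g = Spec.map (p1 φ) ≫ g')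
    (h2 : Spec.map (p2 φ) ≫ g = Spec.map (p2 φ) ≫ g') : g = g' := by
  rw [← Spec.map_preimage g, ← Spec.map_preimage g'] at h0 h1 h2 ⊢
  rw [← Spec.map_comp, ← Spec.map_comp, Spec.map_inj] at h0 h1 h2
  rw [hom_ext3 φ h0 h1 h2]

theorem p0_surjective : Function.Surjective (p0 φ) := pr0_surjective φ.hom

theorem specMap_p0_surjective (h : SqZero φ.hom) : Function.Surjective (Spec.map (p0 φ)) :=
  specMap_surjective (p0 φ) (p0_surjective φ)
    (fun x hx => (sqZero_pr0 φ.hom h).isNilpotent x hx)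

theorem lift3_sm_left (h : SqZero φ.hom) (ε ζ : O ⟶ R)
    (hc : ∀ x, φ.hom (ε.hom x) = φ.hom (ζ.hom x)) :
    lift3 φ ε ζ ε hc (fun _ => rfl) ≫ sm φ h = ζ := by
  apply CommRingCat.hom_ext
  apply RingHom.ext
  intro x
  show sumHom φ.hom h (tripleLift φ.hom ε.hom ζ.hom ε.hom hc (fun _ => rfl) x) = ζ.hom x
  rw [sumHom_apply, pr0_tripleLift, pr1_tripleLift, pr2_tripleLift]
  ring

theorem lift3_sm_right (h : SqZero φ.hom) (ε ζ : O ⟶ R)
    (hc : ∀ x, φ.hom (ε.hom x) = φ.hom (ζ.hom x)) :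
    lift3 φ ε ε ζ (fun _ => rfl) hc ≫ sm φ h = ζ := by
  apply CommRingCat.hom_ext
  apply RingHom.ext
  intro x
  show sumHom φ.hom h (tripleLift φ.hom ε.hom ε.hom ζ.hom (fun _ => rfl) hc x) = ζ.hom x
  rw [sumHom_apply, pr0_tripleLift, pr1_tripleLift, pr2_tripleLift]
  ring

theorem lift3_sm_apply (h : SqZero φ.hom) (ε ζ ζ' : O ⟶ R)
    (hc : ∀ x, φ.hom (ε.hom x) = φ.hom (ζ.hom x))
    (hc' : ∀ x, φ.hom (ε.hom x) = φ.hom (ζ'.hom x)) (x : O) :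
    (lift3 φ ε ζ ζ' hc hc' ≫ sm φ h).hom x = ζ.hom x + ζ'.hom x - ε.hom x := by
  show sumHom φ.hom h (tripleLift φ.hom ε.hom ζ.hom ζ'.hom hc hc' x) = _
  rw [sumHom_apply, pr0_tripleLift, pr1_tripleLift, pr2_tripleLift]

end Cat

section Add

variable {K : Type u} [CommRing K] {A : Scheme.{u}} {f : A ⟶ Spec (CommRingCat.of K)}
variable (L : RelativeGroupLaw K f)
variable {U : A.Opens} (hU : IsAffineOpen U)
variable {R S : CommRingCat.{u}} (φ : R ⟶ S)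

/-- **Additivity**: the product of two points congruent to the unit modulo a square-zero ideal
is given by `ζ + ζ' - ε`. -/
theorem mul_val (hsq : SqZero φ.hom) (t : Spec R ⟶ Spec (CommRingCat.of K))
    (ε ζ ζ' : Γ(A, U) ⟶ R) (hε : (L.one t).1 = pt hU ε)
    (z z' : SchemeHomOver t f) (hz : z.1 = pt hU ζ) (hz' : z'.1 = pt hU ζ')
    (hc : ∀ a, φ.hom (ε.hom a) = φ.hom (ζ.hom a))
    (hc' : ∀ a, φ.hom (ε.hom a) = φ.hom (ζ'.hom a)) :
    (L.mul t z z').1 = pt hU (lift3 φ ε ζ ζ' hc hc' ≫ sm φ hsq) := by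
  -- the structure map on `T3`
  obtain ⟨t₂, ht₂⟩ : ∃ t₂ : Spec (T3 φ) ⟶ Spec (CommRingCat.of K), t₂ = Spec.map (dg φ) ≫ t :=
    ⟨_, rfl⟩
  have hp0 : Spec.map (p0 φ) ≫ t₂ = t := by
    rw [ht₂, ← Category.assoc, ← Spec.map_comp, dg_p0, Spec.map_id, Category.id_comp]
  have hp1 : Spec.map (p1 φ) ≫ t₂ = t := by
    rw [ht₂, ← Category.assoc, ← Spec.map_comp, dg_p1, Spec.map_id, Category.id_comp]
  have hp2 : Spec.map (p2 φ) ≫ t₂ = t := by
    rw [ht₂, ← Category.assoc, ← Spec.map_comp, dg_p2, Spec.map_id, Category.id_comp]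
  have hsm : Spec.map (sm φ hsq) ≫ t₂ = t := by
    rw [ht₂, ← Category.assoc, ← Spec.map_comp, dg_sm, Spec.map_id, Category.id_comp]
  have hone : pt hU ε ≫ f = t := by rw [← hε]; exact (L.one t).2
  have hzf : pt hU ζ ≫ f = t := by rw [← hz]; exact z.2
  have hzf' : pt hU ζ' ≫ f = t := by rw [← hz']; exact z'.2
  have hrefl : ∀ a, φ.hom (ε.hom a) = φ.hom (ε.hom a) := fun _ => rfl
  obtain ⟨ω₁, hω₁⟩ : ∃ ω₁ : Γ(A, U) ⟶ T3 φ, ω₁ = lift3 φ ε ζ ε hc hrefl := ⟨_, rfl⟩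
  obtain ⟨ω₂, hω₂⟩ : ∃ ω₂ : Γ(A, U) ⟶ T3 φ, ω₂ = lift3 φ ε ε ζ' hrefl hc' := ⟨_, rfl⟩
  obtain ⟨ω, hω⟩ : ∃ ω : Γ(A, U) ⟶ T3 φ, ω = lift3 φ ε ζ ζ' hc hc' := ⟨_, rfl⟩
  have hW₁ : pt hU ω₁ ≫ f = t₂ := by
    apply spec_hom_ext3 φ
    · rw [← Category.assoc, ← pt_comp, hω₁, lift3_p0, hone, hp0]
    · rw [← Category.assoc, ← pt_comp, hω₁, lift3_p1, hzf, hp1]
    · rw [← Category.assoc, ← pt_comp, hω₁, lift3_p2, hone, hp2]
  have hW₂ : pt hU ω₂ ≫ f = t₂ := by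
    apply spec_hom_ext3 φ
    · rw [← Category.assoc, ← pt_comp, hω₂, lift3_p0, hone, hp0]
    · rw [← Category.assoc, ← pt_comp, hω₂, lift3_p1, hone, hp1]
    · rw [← Category.assoc, ← pt_comp, hω₂, lift3_p2, hzf', hp2]
  obtain ⟨W₁, hW₁v⟩ : ∃ W₁ : SchemeHomOver t₂ f, W₁.1 = pt hU ω₁ := ⟨⟨_, hW₁⟩, rfl⟩
  obtain ⟨W₂, hW₂v⟩ : ∃ W₂ : SchemeHomOver t₂ f, W₂.1 = pt hU ω₂ := ⟨⟨_, hW₂⟩, rfl⟩
  -- projections of the product
  have key : ∀ (ψ : T3 φ ⟶ R) (hψ : Spec.map ψ ≫ t₂ = t) (y₁ y₂ : SchemeHomOver t f),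
      y₁.1 = pt hU (ω₁ ≫ ψ) → y₂.1 = pt hU (ω₂ ≫ ψ) →
      Spec.map ψ ≫ (L.mul t₂ W₁ W₂).1 = (L.mul t y₁ y₂).1 := by
    intro ψ hψ y₁ y₂ hy₁ hy₂
    have h := L.mul_natural t₂ t (Spec.map ψ) hψ W₁ W₂
    have e1 : schemeHomOverComp (Spec.map ψ) hψ W₁ = y₁ := by
      apply Subtype.ext
      rw [schemeHomOverComp_coe, hW₁v, hy₁, pt_comp]
    have e2 : schemeHomOverComp (Spec.map ψ) hψ W₂ = y₂ := by
      apply Subtype.ext
      rw [schemeHomOverComp_coe, hW₂v, hy₂, pt_comp]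
    rw [e1, e2] at h
    rw [← h, schemeHomOverComp_coe]
  have k0 : Spec.map (p0 φ) ≫ (L.mul t₂ W₁ W₂).1 = pt hU ε := by
    rw [key (p0 φ) hp0 (L.one t) (L.one t) (by rw [hε, hω₁, lift3_p0])
      (by rw [hε, hω₂, lift3_p0]), L.one_mul, hε]
  have k1 : Spec.map (p1 φ) ≫ (L.mul t₂ W₁ W₂).1 = pt hU ζ := by
    rw [key (p1 φ) hp1 z (L.one t) (by rw [hz, hω₁, lift3_p1])
      (by rw [hε, hω₂, lift3_p1]), L.mul_one, hz]
  have k2 : Spec.map (p2 φ) ≫ (L.mul t₂ W₁ W₂).1 = pt hU ζ' := by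
    rw [key (p2 φ) hp2 (L.one t) z' (by rw [hε, hω₁, lift3_p2])
      (by rw [hz', hω₂, lift3_p2]), L.one_mul, hz']
  have ks : Spec.map (sm φ hsq) ≫ (L.mul t₂ W₁ W₂).1 = (L.mul t z z').1 :=
    key (sm φ hsq) hsm z z' (by rw [hz, hω₁, lift3_sm_left]) (by rw [hz', hω₂, lift3_sm_right])
  -- the product lands in `U`
  have hr : Set.range (L.mul t₂ W₁ W₂).1 ⊆ (U : Set A) := by
    apply range_subset_of_comp (Spec.map (p0 φ)) (specMap_p0_surjective φ hsq)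
    rw [k0]
    exact range_pt hU ε
  obtain ⟨ω', hω'⟩ := exists_pt hU (L.mul t₂ W₁ W₂).1 hr
  have hωω : ω' = ω := by
    apply hom_ext3 φ
    · apply pt_inj hU
      rw [pt_comp, ← hω', k0, hω, lift3_p0]
    · apply pt_inj hU
      rw [pt_comp, ← hω', k1, hω, lift3_p1]
    · apply pt_inj hU
      rw [pt_comp, ← hω', k2, hω, lift3_p2]
  rw [← ks, hω', hωω, ← pt_comp, hω]

end Add

section Nsmul

variable {K : Type u} [CommRing K] {A : Scheme.{u}} {f : A ⟶ Spec (CommRingCat.of K)}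
variable (L : RelativeGroupLaw K f)
variable {U : A.Opens} (hU : IsAffineOpen U)
variable {R S O : CommRingCat.{u}} (φ : R ⟶ S)

theorem sq_of_cong (hsq : SqZero φ.hom) (ε ζ : O ⟶ R)
    (hc : ∀ a, φ.hom (ε.hom a) = φ.hom (ζ.hom a)) (a b : O) :
    (ζ.hom a - ε.hom a) * (ζ.hom b - ε.hom b) = 0 :=
  hsq _ _ (by rw [map_sub, hc, sub_self]) (by rw [map_sub, hc, sub_self])

/-- `ε + c (ζ - ε)` in `CommRingCat`. -/
abbrev aff (hsq : SqZero φ.hom) (ε ζ : O ⟶ R) (hc : ∀ a, φ.hom (ε.hom a) = φ.hom (ζ.hom a))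
    (c : R) : O ⟶ R :=
  CommRingCat.ofHom (affHom ε.hom ζ.hom c (sq_of_cong φ hsq ε ζ hc))

theorem aff_apply (hsq : SqZero φ.hom) (ε ζ : O ⟶ R) (hc) (c : R) (a : O) :
    (aff φ hsq ε ζ hc c).hom a = ε.hom a + c * (ζ.hom a - ε.hom a) := rfl

theorem aff_cong (hsq : SqZero φ.hom) (ε ζ : O ⟶ R) (hc) (c : R) (a : O) :
    φ.hom (ε.hom a) = φ.hom ((aff φ hsq ε ζ hc c).hom a) := by
  rw [aff_apply, map_add, map_mul, map_sub, hc, sub_self, mul_zero, add_zero]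

theorem aff_zero (hsq : SqZero φ.hom) (ε ζ : O ⟶ R) (hc) : aff φ hsq ε ζ hc 0 = ε := by
  apply CommRingCat.hom_ext
  apply RingHom.ext
  intro a
  rw [aff_apply, zero_mul, add_zero]

theorem aff_one (hsq : SqZero φ.hom) (ε ζ : O ⟶ R) (hc) : aff φ hsq ε ζ hc 1 = ζ := by
  apply CommRingCat.hom_ext
  apply RingHom.ext
  intro a
  rw [aff_apply, one_mul, add_sub_cancel]

theorem aff_aff (hsq : SqZero φ.hom) (ε ζ : O ⟶ R) (hc) (c d : R) :
    aff φ hsq ε (aff φ hsq ε ζ hc c) (aff_cong φ hsq ε ζ hc c) d = aff φ hsq ε ζ hc (d * c) := by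
  apply CommRingCat.hom_ext
  apply RingHom.ext
  intro a
  rw [aff_apply, aff_apply, aff_apply]
  ring

/-- `n • z` is given by `ε + n (ζ - ε)`. -/
theorem nsmul_val_pt (hsq : SqZero φ.hom) (t : Spec R ⟶ Spec (CommRingCat.of K))
    (ε ζ : Γ(A, U) ⟶ R) (hε : (L.one t).1 = pt hU ε)
    (z : SchemeHomOver t f) (hz : z.1 = pt hU ζ)
    (hc : ∀ a, φ.hom (ε.hom a) = φ.hom (ζ.hom a)) (n : ℕ) :
    (L.nsmul t n z).1 = pt hU (aff φ hsq ε ζ hc (n : R)) := by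
  induction n with
  | zero =>
    rw [RelativeGroupLaw.nsmul_zero, hε, Nat.cast_zero, aff_zero]
  | succ n ih =>
    rw [RelativeGroupLaw.nsmul_succ,
      mul_val L hU φ hsq t ε (aff φ hsq ε ζ hc (n : R)) ζ hε (L.nsmul t n z) z ih hz
        (aff_cong φ hsq ε ζ hc (n : R)) hc]
    congr 1
    apply CommRingCat.hom_ext
    apply RingHom.ext
    intro a
    rw [lift3_sm_apply, aff_apply, aff_apply, Nat.cast_succ]
    ring

/-- The structure homomorphism `K ⟶ Γ(A, U)`. -/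
noncomputable def kap (f : A ⟶ Spec (CommRingCat.of K)) : CommRingCat.of K ⟶ Γ(A, U) :=
  Spec.preimage (hU.fromSpec ≫ f)

theorem pt_comp_f {R : CommRingCat.{u}} (ζ : Γ(A, U) ⟶ R) :
    pt hU ζ ≫ f = Spec.map (kap hU f ≫ ζ) := by
  unfold pt kap
  rw [Category.assoc, Spec.map_comp, Spec.map_preimage]

theorem kap_eq_of_pt_comp_f {R : CommRingCat.{u}} {ζ ζ' : Γ(A, U) ⟶ R}
    (h : pt hU ζ ≫ f = pt hU ζ' ≫ f) : kap hU f ≫ ζ = kap hU f ≫ ζ' := by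
  rw [pt_comp_f, pt_comp_f] at h
  exact Spec.map_injective h

/-- Points congruent to the unit modulo `ker φ` come from ring homomorphisms. -/
theorem exists_pt_of_cong (hφ : Function.Surjective φ) (hsq : SqZero φ.hom)
    (t : Spec R ⟶ Spec (CommRingCat.of K)) (ε : Γ(A, U) ⟶ R) (hε : (L.one t).1 = pt hU ε)
    (z : SchemeHomOver t f) (hzN : Spec.map φ ≫ z.1 = Spec.map φ ≫ (L.one t).1) :
    ∃ ζ : Γ(A, U) ⟶ R, z.1 = pt hU ζ ∧ ∀ a, φ.hom (ε.hom a) = φ.hom (ζ.hom a) := by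
  have hr : Set.range z.1 ⊆ (U : Set A) := by
    apply range_subset_of_comp (Spec.map φ)
      (specMap_surjective φ hφ (fun x hx => hsq.isNilpotent x hx))
    rw [hzN, hε, ← pt_comp]
    exact range_pt hU _
  obtain ⟨ζ, hζ⟩ := exists_pt hU z.1 hr
  refine ⟨ζ, hζ, fun a => ?_⟩
  have h1 : pt hU (ζ ≫ φ) = pt hU (ε ≫ φ) := by
    rw [pt_comp, pt_comp, ← hζ, hzN, hε]
  have h2 := pt_inj hU h1
  exact (congrArg (fun g : Γ(A, U) ⟶ S => g.hom a) h2).symm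

/-- **Injectivity** of `n •` on the points congruent to the unit, `n` invertible in `R`. -/
theorem eq_one_of_nsmul_eq_one (hφ : Function.Surjective φ) (hsq : SqZero φ.hom)
    (t : Spec R ⟶ Spec (CommRingCat.of K)) (ε : Γ(A, U) ⟶ R) (hε : (L.one t).1 = pt hU ε)
    (z : SchemeHomOver t f) (hzN : Spec.map φ ≫ z.1 = Spec.map φ ≫ (L.one t).1)
    (n : ℕ) (hn : IsUnit (n : R)) (h : L.nsmul t n z = L.one t) : z = L.one t := by
  obtain ⟨ζ, hz, hc⟩ := exists_pt_of_cong L hU φ hφ hsq t ε hε z hzN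
  have h1 := nsmul_val_pt L hU φ hsq t ε ζ hε z hz hc n
  rw [h, hε] at h1
  have h2 := pt_inj hU h1
  apply Subtype.ext
  rw [hz, hε]
  congr 1
  apply CommRingCat.hom_ext
  apply RingHom.ext
  intro a
  have h3 : ε.hom a = (aff φ hsq ε ζ hc (n : R)).hom a :=
    congrArg (fun g : Γ(A, U) ⟶ R => g.hom a) h2
  rw [aff_apply] at h3
  have h4 : (n : R) * (ζ.hom a - ε.hom a) = 0 := by
    have := h3
    linear_combination -this
  have h5 : ζ.hom a - ε.hom a = 0 := (hn.mul_right_eq_zero).1 h4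
  exact sub_eq_zero.1 h5

/-- **Surjectivity** of `n •` on the points congruent to the unit, `n` invertible in `R`. -/
theorem exists_nsmul_eq (hφ : Function.Surjective φ) (hsq : SqZero φ.hom)
    (t : Spec R ⟶ Spec (CommRingCat.of K)) (ε : Γ(A, U) ⟶ R) (hε : (L.one t).1 = pt hU ε)
    (z' : SchemeHomOver t f) (hzN : Spec.map φ ≫ z'.1 = Spec.map φ ≫ (L.one t).1)
    (n : ℕ) (hn : IsUnit (n : R)) :
    ∃ z : SchemeHomOver t f, Spec.map φ ≫ z.1 = Spec.map φ ≫ (L.one t).1 ∧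
      L.nsmul t n z = z' := by
  obtain ⟨ζ', hz', hc'⟩ := exists_pt_of_cong L hU φ hφ hsq t ε hε z' hzN
  obtain ⟨c, hcn⟩ := hn.exists_right_inv
  have hone : pt hU ε ≫ f = t := by rw [← hε]; exact (L.one t).2
  have hzf' : pt hU ζ' ≫ f = t := by rw [← hz']; exact z'.2
  have hk : kap hU f ≫ ζ' = kap hU f ≫ ε := kap_eq_of_pt_comp_f hU (hzf'.trans hone.symm)
  have hzf : pt hU (aff φ hsq ε ζ' hc' c) ≫ f = t := by
    rw [← hone, pt_comp_f, pt_comp_f]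
    congr 1
    apply CommRingCat.hom_ext
    apply RingHom.ext
    intro x
    have hkx := congrArg (fun g : CommRingCat.of K ⟶ R => g.hom x) hk
    simp only [CommRingCat.hom_comp, RingHom.coe_comp, Function.comp_apply] at hkx ⊢
    rw [aff_apply, hkx, sub_self, mul_zero, add_zero]
  refine ⟨⟨pt hU (aff φ hsq ε ζ' hc' c), hzf⟩, ?_, ?_⟩
  · rw [hε, ← pt_comp, ← pt_comp]
    congr 1
    apply CommRingCat.hom_ext
    apply RingHom.ext
    intro a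
    exact (aff_cong φ hsq ε ζ' hc' c a).symm
  · apply Subtype.ext
    rw [nsmul_val_pt L hU φ hsq t ε (aff φ hsq ε ζ' hc' c) hε _ rfl
      (aff_cong φ hsq ε ζ' hc' c) n, aff_aff, hcn, aff_one, hz']

end Nsmul

end Fermat.Agent.S26.E.H14
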