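/-
S26 (row 25), package (E), sub-leaf E_PSURJ_of (helper95):
`[n]` finite and surjective ⟹ `x ↦ n • x` is surjective on `K`-points.

The fibre of `[n]` over a `K`-point `y` is a nonempty `K`-scheme, locally of finite type, hence
has a closed point, and a closed point of a scheme locally of finite type over the algebraically
closed field `K` is a `K`-point (`AlgebraicGeometry.pointOfClosedPoint`).
-/
import Fermat.Agent.S26.E.Defs

set_option autoImplicit false

open CategoryTheory CategoryTheory.Limits AlgebraicGeometry NeronModelInfra GoodReductionJacobian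

universe u

namespace Fermat.Agent.S26.E.H95

variable {K : Type u} [Field K] {A : Scheme.{u}} {f : A ⟶ Spec (CommRingCat.of K)}

/-- A nonempty scheme locally of finite type over an algebraically closed field has a
`K`-point. -/
theorem exists_point_of_nonempty [IsAlgClosed K] {P : Scheme.{u}}
    (p : P ⟶ Spec (CommRingCat.of K)) [LocallyOfFiniteType p] [Nonempty P] :
    ∃ s : Spec (CommRingCat.of K) ⟶ P, s ≫ p = 𝟙 _ := by
  have : JacobsonSpace ↥P := LocallyOfFiniteType.jacobsonSpace p
  obtain ⟨x, -, hx⟩ := nonempty_inter_closedPoints (X := P) (Z := Set.univ)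
    Set.univ_nonempty isClosed_univ.isLocallyClosed
  exact ⟨pointOfClosedPoint p x hx, pointOfClosedPoint_comp p x hx⟩

/-- The `K`-point `n • x` is the composition of `x` with the morphism `[n]`. -/
theorem nsmul_coe (L : RelativeGroupLaw K f) (n : ℕ)
    (x : SchemeHomOver (𝟙 (Spec (CommRingCat.of K))) f) :
    (L.nsmul (𝟙 (Spec (CommRingCat.of K))) n x).1 = x.1 ≫ L.schemeNsmul n := by
  have h := L.nsmul_natural f (𝟙 (Spec (CommRingCat.of K))) x.1 x.2 n RelativeGroupLaw.idPoint
  have hx : schemeHomOverComp x.1 x.2 (RelativeGroupLaw.idPoint (f := f)) = x :=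
    Subtype.ext (Category.comp_id _)
  rw [hx] at h
  rw [← h]
  rfl

/-- The same for `T`-points. -/
theorem nsmul_coe_general (L : RelativeGroupLaw K f) (n : ℕ) {T : Scheme.{u}}
    (t : T ⟶ Spec (CommRingCat.of K)) (x : SchemeHomOver t f) :
    (L.nsmul t n x).1 = x.1 ≫ L.schemeNsmul n := by
  have h := L.nsmul_natural f t x.1 x.2 n RelativeGroupLaw.idPoint
  have hx : schemeHomOverComp x.1 x.2 (RelativeGroupLaw.idPoint (f := f)) = x :=
    Subtype.ext (Category.comp_id _)
  rw [hx] at h
  rw [← h]
  rfl

/-- **E_PSURJ_of**, with the hypotheses actually used: `[n]` locally of finite type and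
surjective. -/
theorem psurj_of_surjective [IsAlgClosed K] (L : RelativeGroupLaw K f) (n : ℕ)
    [LocallyOfFiniteType (L.schemeNsmul n)] [Surjective (L.schemeNsmul n)]
    (y : SchemeHomOver (𝟙 (Spec (CommRingCat.of K))) f) :
    ∃ x : SchemeHomOver (𝟙 (Spec (CommRingCat.of K))) f,
      L.nsmul (𝟙 (Spec (CommRingCat.of K))) n x = y := by
  -- the fibre over `y`
  let P : Scheme.{u} := pullback (L.schemeNsmul n) y.1
  let p : P ⟶ Spec (CommRingCat.of K) := pullback.snd (L.schemeNsmul n) y.1
  have : LocallyOfFiniteType p := inferInstanceAs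
    (LocallyOfFiniteType (pullback.snd (L.schemeNsmul n) y.1))
  have : Surjective p := inferInstanceAs (Surjective (pullback.snd (L.schemeNsmul n) y.1))
  have : Nonempty P := by
    obtain ⟨z, -⟩ := p.surjective (Classical.arbitrary _)
    exact ⟨z⟩
  obtain ⟨s, hs⟩ := exists_point_of_nonempty p
  have hcomp : (s ≫ pullback.fst (L.schemeNsmul n) y.1) ≫ L.schemeNsmul n = y.1 := by
    rw [Category.assoc, pullback.condition, ← Category.assoc]
    show (s ≫ p) ≫ y.1 = y.1
    rw [hs, Category.id_comp]
  have hover : (s ≫ pullback.fst (L.schemeNsmul n) y.1) ≫ f = 𝟙 _ := by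
    have h1 : (s ≫ pullback.fst (L.schemeNsmul n) y.1) ≫ L.schemeNsmul n ≫ f =
        (s ≫ pullback.fst (L.schemeNsmul n) y.1) ≫ f :=
      congrArg (fun q => (s ≫ pullback.fst (L.schemeNsmul n) y.1) ≫ q) (L.schemeNsmul_over n)
    rw [← h1, ← Category.assoc, hcomp]
    exact y.2
  refine ⟨⟨s ≫ pullback.fst (L.schemeNsmul n) y.1, hover⟩, Subtype.ext ?_⟩
  rw [nsmul_coe]
  exact hcomp

/-- **E_PSURJ_of** (helper14's interface). -/
theorem stmt_E_PSURJ_of : Stmt_E_PSURJ_of.{u} := by
  intro K _ A f L hL n hfin hsurj y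
  have := hL.algClosed
  have := hfin
  have := hsurj
  exact psurj_of_surjective L n y

end Fermat.Agent.S26.E.H95
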