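/-
S26 (E), helper14: a morphism locally of finite presentation with the unique infinitesimal
lifting property on affine test objects is étale.  (Existence of lifts is only required for
maps `Spec S ⟶ X` landing in an affine open of `X`.)
-/
import Fermat.Agent.S26.E.H14_Dict

set_option autoImplicit false

open CategoryTheory CategoryTheory.Limits AlgebraicGeometry

universe u

namespace Fermat.Agent.S26.E.H14

variable {X Y : Scheme.{u}}

/-- Existence of infinitesimal lifts (for maps landing in an affine open) implies smoothness. -/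
theorem smooth_of_lift (F : X ⟶ Y) [LocallyOfFinitePresentation F]
    (Hex : ∀ (R S : CommRingCat.{u}) (φ : R ⟶ S), Function.Surjective φ →
      RingHom.ker φ.hom ^ 2 = ⊥ → ∀ (V : X.Opens), IsAffineOpen V → ∀ (g₀ : Spec S ⟶ X),
      Set.range g₀ ⊆ (V : Set X) → ∀ (h : Spec R ⟶ Y), g₀ ≫ F = Spec.map φ ≫ h →
      ∃ g : Spec R ⟶ X, Spec.map φ ≫ g = g₀ ∧ g ≫ F = h) : Smooth F := by
  refine ⟨fun {U} hU {V} hV e => ?_⟩
  have hfp := F.finitePresentation_appLE hU hV e
  let := (F.appLE U V e).hom.toAlgebra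
  have hfs : Algebra.FormallySmooth Γ(Y, U) Γ(X, V) := by
    refine Algebra.FormallySmooth.iff_comp_surjective.mpr fun B _ _ I hI g₀' => ?_
    -- the test objects
    obtain ⟨φ, hφdef⟩ : ∃ φ : CommRingCat.of B ⟶ CommRingCat.of (B ⧸ I),
        φ = CommRingCat.ofHom (Ideal.Quotient.mk I) := ⟨_, rfl⟩
    have hφ : Function.Surjective φ := by
      rw [hφdef]; exact Ideal.Quotient.mk_surjective
    have hker : RingHom.ker φ.hom ^ 2 = ⊥ := by
      rw [hφdef]
      simpa using hI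
    obtain ⟨γ₀, hγ₀⟩ : ∃ γ₀ : Γ(X, V) ⟶ CommRingCat.of (B ⧸ I),
        γ₀ = CommRingCat.ofHom g₀'.toRingHom := ⟨_, rfl⟩
    obtain ⟨β, hβ⟩ : ∃ β : Γ(Y, U) ⟶ CommRingCat.of B,
        β = CommRingCat.ofHom (algebraMap Γ(Y, U) B) := ⟨_, rfl⟩
    have hcomp : F.appLE U V e ≫ γ₀ = β ≫ φ := by
      rw [hγ₀, hβ, hφdef]
      apply CommRingCat.hom_ext
      apply RingHom.ext
      intro x
      exact g₀'.commutes x
    have hcomm : pt hV γ₀ ≫ F = Spec.map φ ≫ pt hU β := by
      unfold pt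
      rw [Category.assoc, ← hU.SpecMap_appLE_fromSpec F hV e, ← Category.assoc,
        ← Spec.map_comp, hcomp, Spec.map_comp, Category.assoc]
    obtain ⟨g, hg1, hg2⟩ := Hex _ _ φ hφ hker V hV (pt hV γ₀) (range_pt hV γ₀) (pt hU β) hcomm
    have hnil : ∀ x : B, φ.hom x = 0 → IsNilpotent x := by
      intro x hx
      refine ⟨2, ?_⟩
      have h1 : x ^ 2 ∈ RingHom.ker φ.hom ^ 2 := Ideal.pow_mem_pow ((RingHom.mem_ker).2 hx) 2
      rw [hker] at h1
      exact (Ideal.mem_bot).1 h1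
    have hr : Set.range g ⊆ (V : Set X) := by
      apply range_subset_of_comp (Spec.map φ) (specMap_surjective φ hφ hnil)
      rw [hg1]
      exact range_pt hV γ₀
    obtain ⟨γ, hγ⟩ := exists_pt hV g hr
    have h1 : γ ≫ φ = γ₀ := by
      apply pt_inj hV
      rw [pt_comp, ← hγ, hg1]
    have h2 : F.appLE U V e ≫ γ = β := by
      apply pt_inj hU
      unfold pt
      rw [Spec.map_comp, Category.assoc, hU.SpecMap_appLE_fromSpec F hV e]
      have : Spec.map γ ≫ hV.fromSpec = g := hγ.symm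
      rw [← Category.assoc, this, hg2]
      rfl
    refine ⟨⟨γ.hom, fun r => ?_⟩, ?_⟩
    · have := congrArg (fun q : Γ(Y, U) ⟶ CommRingCat.of B => q.hom r) h2
      rw [hβ] at this
      exact this
    · apply AlgHom.ext
      intro x
      have := congrArg (fun q : Γ(X, V) ⟶ CommRingCat.of (B ⧸ I) => q.hom x) h1
      rw [hγ₀, hφdef] at this
      exact this
  exact ⟨hfs, hfp⟩

/-- Unique infinitesimal lifting implies étale. -/
theorem etale_of_lift (F : X ⟶ Y) [LocallyOfFinitePresentation F]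
    (Huniq : ∀ (R S : CommRingCat.{u}) (φ : R ⟶ S), Function.Surjective φ →
      RingHom.ker φ.hom ^ 2 = ⊥ → ∀ (g₁ g₂ : Spec R ⟶ X),
      Spec.map φ ≫ g₁ = Spec.map φ ≫ g₂ → g₁ ≫ F = g₂ ≫ F → g₁ = g₂)
    (Hex : ∀ (R S : CommRingCat.{u}) (φ : R ⟶ S), Function.Surjective φ →
      RingHom.ker φ.hom ^ 2 = ⊥ → ∀ (V : X.Opens), IsAffineOpen V → ∀ (g₀ : Spec S ⟶ X),
      Set.range g₀ ⊆ (V : Set X) → ∀ (h : Spec R ⟶ Y), g₀ ≫ F = Spec.map φ ≫ h →
      ∃ g : Spec R ⟶ X, Spec.map φ ≫ g = g₀ ∧ g ≫ F = h) : Etale F := by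
  haveI : FormallyUnramified F := FormallyUnramified.of_hom_ext F Huniq
  haveI : Smooth F := smooth_of_lift F Hex
  exact Etale.of_formallyUnramified_of_flat F

end Fermat.Agent.S26.E.H14
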