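/-
S26 (E), helper14: the infinitesimal lifting property of a smooth morphism to an affine base,
for maps landing in an affine open of the source.
-/
import Fermat.Agent.S26.E.H14_Dict

set_option autoImplicit false

open CategoryTheory CategoryTheory.Limits AlgebraicGeometry

universe u

namespace Fermat.Agent.S26.E.H14

variable {X : Scheme.{u}} {B : CommRingCat.{u}}

theorem exists_lift_of_smooth (F : X ⟶ Spec B) [Smooth F] {V : X.Opens} (hV : IsAffineOpen V)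
    {R S : CommRingCat.{u}} (φ : R ⟶ S) (hφ : Function.Surjective φ)
    (hker : RingHom.ker φ.hom ^ 2 = ⊥)
    (g₀ : Spec S ⟶ X) (hg₀ : Set.range g₀ ⊆ (V : Set X)) (t : Spec R ⟶ Spec B)
    (hcomm : g₀ ≫ F = Spec.map φ ≫ t) :
    ∃ g : Spec R ⟶ X, Spec.map φ ≫ g = g₀ ∧ g ≫ F = t := by
  obtain ⟨κ, hκ⟩ : ∃ κ : B ⟶ Γ(X, V), Spec.map κ = hV.fromSpec ≫ F :=
    ⟨Spec.preimage (hV.fromSpec ≫ F), Spec.map_preimage _⟩
  obtain ⟨τ, hτ⟩ : ∃ τ : B ⟶ R, Spec.map τ = t := ⟨Spec.preimage t, Spec.map_preimage _⟩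
  obtain ⟨γ₀, hγ₀⟩ := exists_pt hV g₀ hg₀
  have hsm : Smooth (Spec.map κ) := by rw [hκ]; infer_instance
  have hκs : κ.hom.Smooth := (HasRingHomProperty.Spec_iff (P := @Smooth)).mp hsm
  have hc : κ ≫ γ₀ = τ ≫ φ := by
    apply Spec.map_injective
    rw [Spec.map_comp, Spec.map_comp, hκ, hτ, ← hcomm, hγ₀]
    rfl
  letI : Algebra B Γ(X, V) := κ.hom.toAlgebra
  letI : Algebra B R := τ.hom.toAlgebra
  letI : Algebra B S := (τ ≫ φ).hom.toAlgebra
  haveI : Algebra.Smooth B Γ(X, V) := hκs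
  let φ' : R →ₐ[B] S := ⟨φ.hom, fun r => rfl⟩
  let γ₀' : Γ(X, V) →ₐ[B] S :=
    ⟨γ₀.hom, fun r => congrArg (fun q : B ⟶ S => q.hom r) hc⟩
  have hnil : IsNilpotent (RingHom.ker (φ' : R →+* S)) := ⟨2, hker⟩
  let γ' : Γ(X, V) →ₐ[B] R := Algebra.FormallySmooth.liftOfSurjective γ₀' φ' hφ hnil
  have hγ' : ∀ x, φ.hom (γ' x) = γ₀.hom x := fun x =>
    Algebra.FormallySmooth.liftOfSurjective_apply γ₀' φ' hφ hnil x
  refine ⟨pt hV (CommRingCat.ofHom γ'.toRingHom), ?_, ?_⟩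
  · rw [← pt_comp, hγ₀]
    congr 1
    apply CommRingCat.hom_ext
    apply RingHom.ext
    intro x
    exact hγ' x
  · unfold pt
    rw [Category.assoc, ← hκ, ← Spec.map_comp, ← hτ]
    congr 1
    apply CommRingCat.hom_ext
    apply RingHom.ext
    intro x
    exact γ'.commutes x

end Fermat.Agent.S26.E.H14
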