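/-
S26 (E), helper14: multiplication by `n` on an abelian variety is étale when `n` is invertible.
-/
import Fermat.Agent.S26.E.Defs
import Fermat.Agent.S26.E.H14_EH
import Fermat.Agent.S26.E.H14_Lift
import Fermat.Agent.S26.E.H14_Smooth

set_option autoImplicit false

open CategoryTheory CategoryTheory.Limits AlgebraicGeometry NeronModelInfra GoodReductionJacobian

universe u

namespace Fermat.Agent.S26.E.H14

section

variable {K : Type u} [Field K] {A : Scheme.{u}} {f : A ⟶ Spec (CommRingCat.of K)}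
variable (L : RelativeGroupLaw K f)

/-- `n` invertible in `K` is invertible in every `K`-algebra. -/
theorem isUnit_natCast {R : CommRingCat.{u}} (t : Spec R ⟶ Spec (CommRingCat.of K)) (n : ℕ)
    (hn : (n : K) ≠ 0) : IsUnit (n : R) := by
  have h1 : IsUnit (n : K) := isUnit_iff_ne_zero.2 hn
  have h2 := h1.map (Spec.preimage t).hom
  rwa [map_natCast] at h2

/-- An affine open neighbourhood of the unit section. -/
theorem exists_affine_unit :
    ∃ U : A.Opens, IsAffineOpen U ∧ Set.range (unitHom L) ⊆ (U : Set A) := by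
  obtain ⟨x₀⟩ : Nonempty (Spec (CommRingCat.of K)) := inferInstance
  obtain ⟨_, ⟨U, hU, rfl⟩, hxU, -⟩ :=
    A.isBasis_affineOpens.exists_subset_of_mem_open (Set.mem_univ (unitHom L x₀)) isOpen_univ
  refine ⟨U, hU, ?_⟩
  rintro _ ⟨x, rfl⟩
  have : x = x₀ := Subsingleton.elim _ _
  rw [this]
  exact hxU

variable {U : A.Opens} (hU : IsAffineOpen U)

theorem exists_eps (hU0 : Set.range (unitHom L) ⊆ (U : Set A)) {R : CommRingCat.{u}}
    (t : Spec R ⟶ Spec (CommRingCat.of K)) : ∃ ε : Γ(A, U) ⟶ R, (L.one t).1 = pt hU ε := by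
  apply exists_pt hU
  rw [one_val]
  rintro _ ⟨x, rfl⟩
  exact hU0 ⟨t x, rfl⟩

/-- **Uniqueness of infinitesimal lifts** along `[n]`. -/
theorem nsmul_lift_unique (hc : L.IsCommutative) (n : ℕ) (hn : (n : K) ≠ 0)
    {R S : CommRingCat.{u}} (φ : R ⟶ S) (hφ : Function.Surjective φ)
    (hker : RingHom.ker φ.hom ^ 2 = ⊥) (g₁ g₂ : Spec R ⟶ A)
    (h1 : Spec.map φ ≫ g₁ = Spec.map φ ≫ g₂)
    (h2 : g₁ ≫ L.schemeNsmul n = g₂ ≫ L.schemeNsmul n) : g₁ = g₂ := by
  obtain ⟨U, hU, hU0⟩ := exists_affine_unit L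
  have hsq := sqZero_of_ker_sq φ.hom hker
  obtain ⟨t, ht⟩ : ∃ t, g₁ ≫ f = t := ⟨_, rfl⟩
  have hg₂ : g₂ ≫ f = t := by
    rw [← ht, ← L.schemeNsmul_over n, ← Category.assoc, ← h2, Category.assoc,
      L.schemeNsmul_over]
  obtain ⟨x₁, hx₁⟩ : ∃ x₁ : SchemeHomOver t f, x₁.1 = g₁ := ⟨⟨g₁, ht⟩, rfl⟩
  obtain ⟨x₂, hx₂⟩ : ∃ x₂ : SchemeHomOver t f, x₂.1 = g₂ := ⟨⟨g₂, hg₂⟩, rfl⟩
  obtain ⟨z, hz⟩ : ∃ z, z = L.mul t x₁ (L.inv t x₂) := ⟨_, rfl⟩
  have hzN : Spec.map φ ≫ z.1 = Spec.map φ ≫ (L.one t).1 := by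
    have e : schemeHomOverComp (Spec.map φ) rfl x₁ = schemeHomOverComp (Spec.map φ) rfl x₂ := by
      apply Subtype.ext
      rw [schemeHomOverComp_coe, schemeHomOverComp_coe, hx₁, hx₂, h1]
    have h := L.mul_natural t _ (Spec.map φ) rfl x₁ (L.inv t x₂)
    rw [inv_natural, e, L.mul_inv_cancel, ← L.one_natural t _ (Spec.map φ) rfl, ← hz] at h
    exact congrArg Subtype.val h
  have hnz : L.nsmul t n z = L.one t := by
    have e : L.nsmul t n x₁ = L.nsmul t n x₂ := by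
      apply Subtype.ext
      rw [nsmul_val, nsmul_val, hx₁, hx₂, h2]
    rw [hz, nsmul_mul L hc, nsmul_inv L hc, e, L.mul_inv_cancel]
  obtain ⟨ε, hε⟩ := exists_eps L hU hU0 t
  have h3 := eq_one_of_nsmul_eq_one L hU φ hφ hsq t ε hε z hzN n (isUnit_natCast t n hn) hnz
  have h4 : x₁ = x₂ := by
    letI := L.pointGroup t
    have h5 : x₁ * x₂⁻¹ = 1 := by
      have := h3
      rw [hz] at this
      exact this
    exact mul_inv_eq_one.1 h5
  rw [← hx₁, ← hx₂, h4]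

/-- **Existence of infinitesimal lifts** along `[n]`. -/
theorem nsmul_lift_exists (hc : L.IsCommutative) [Smooth f] (n : ℕ) (hn : (n : K) ≠ 0)
    {R S : CommRingCat.{u}} (φ : R ⟶ S) (hφ : Function.Surjective φ)
    (hker : RingHom.ker φ.hom ^ 2 = ⊥) (V : A.Opens) (hV : IsAffineOpen V)
    (g₀ : Spec S ⟶ A) (hg₀ : Set.range g₀ ⊆ (V : Set A)) (h : Spec R ⟶ A)
    (hcomm : g₀ ≫ L.schemeNsmul n = Spec.map φ ≫ h) :
    ∃ g : Spec R ⟶ A, Spec.map φ ≫ g = g₀ ∧ g ≫ L.schemeNsmul n = h := by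
  obtain ⟨U, hU, hU0⟩ := exists_affine_unit L
  have hsq := sqZero_of_ker_sq φ.hom hker
  obtain ⟨t, ht⟩ : ∃ t, h ≫ f = t := ⟨_, rfl⟩
  have hg₀f : g₀ ≫ f = Spec.map φ ≫ t := by
    rw [← L.schemeNsmul_over n, ← Category.assoc, hcomm, Category.assoc, ht]
  -- a first lift
  obtain ⟨g', hg'1, hg'2⟩ := exists_lift_of_smooth f hV φ hφ hker g₀ hg₀ t hg₀f
  obtain ⟨x', hx'⟩ : ∃ x' : SchemeHomOver t f, x'.1 = g' := ⟨⟨g', hg'2⟩, rfl⟩
  obtain ⟨hh, hhh⟩ : ∃ hh : SchemeHomOver t f, hh.1 = h := ⟨⟨h, ht⟩, rfl⟩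
  -- the defect
  obtain ⟨δ, hδ⟩ : ∃ δ, δ = L.mul t hh (L.inv t (L.nsmul t n x')) := ⟨_, rfl⟩
  have hδN : Spec.map φ ≫ δ.1 = Spec.map φ ≫ (L.one t).1 := by
    have e : schemeHomOverComp (Spec.map φ) rfl hh =
        schemeHomOverComp (Spec.map φ) rfl (L.nsmul t n x') := by
      apply Subtype.ext
      rw [schemeHomOverComp_coe, schemeHomOverComp_coe, hhh, nsmul_val, hx', ← hcomm,
        ← Category.assoc, hg'1]
    have h := L.mul_natural t _ (Spec.map φ) rfl hh (L.inv t (L.nsmul t n x'))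
    rw [inv_natural, e, L.mul_inv_cancel, ← L.one_natural t _ (Spec.map φ) rfl, ← hδ] at h
    exact congrArg Subtype.val h
  obtain ⟨ε, hε⟩ := exists_eps L hU hU0 t
  obtain ⟨z, hzN, hnz⟩ :=
    exists_nsmul_eq L hU φ hφ hsq t ε hε δ hδN n (isUnit_natCast t n hn)
  refine ⟨(L.mul t z x').1, ?_, ?_⟩
  · have h := L.mul_natural t _ (Spec.map φ) rfl z x'
    have e : schemeHomOverComp (Spec.map φ) rfl z = L.one (Spec.map φ ≫ t) := by
      apply Subtype.ext
      rw [schemeHomOverComp_coe, hzN, ← schemeHomOverComp_coe (Spec.map φ) rfl (L.one t),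
        L.one_natural]
    rw [e, L.one_mul] at h
    have h' := congrArg Subtype.val h
    rw [schemeHomOverComp_coe, schemeHomOverComp_coe, hx', hg'1] at h'
    exact h'
  · rw [← nsmul_val, nsmul_mul L hc, hnz, hδ, ← hhh]
    congr 1
    letI := L.pointGroup t
    exact inv_mul_cancel_right hh (L.nsmul t n x')

end

/-- **E-ETALE**: multiplication by an invertible `n` is étale. -/
theorem stmt_E_ETALE : Stmt_E_ETALE.{u} := by
  intro K _ A f L hL n hn
  haveI : Smooth f := hL.bundle.smooth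
  haveI : IsLocallyNoetherian A := LocallyOfFiniteType.isLocallyNoetherian f
  haveI : LocallyOfFiniteType (L.schemeNsmul n) := by
    have : LocallyOfFiniteType (L.schemeNsmul n ≫ f) := by
      rw [L.schemeNsmul_over]; infer_instance
    exact locallyOfFiniteType_of_comp (L.schemeNsmul n) f
  haveI : LocallyOfFinitePresentation (L.schemeNsmul n) := inferInstance
  exact etale_of_lift (L.schemeNsmul n)
    (fun R S φ hφ hker g₁ g₂ h1 h2 => nsmul_lift_unique L hL.comm n hn φ hφ hker g₁ g₂ h1 h2)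
    (fun R S φ hφ hker V hV g₀ hg₀ h hcomm =>
      nsmul_lift_exists L hL.comm n hn φ hφ hker V hV g₀ hg₀ h hcomm)

end Fermat.Agent.S26.E.H14
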