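/-
S26 (row 25), package (E), sub-leaf E_FIN_of (helper80):
`[n]` étale ⟹ `[n]` finite, for a proper `f : A ⟶ Spec K`.

Route: `[n] ≫ f = f` and `f` proper, separated ⟹ `[n]` proper (cancellation);
étale ⟹ locally quasi-finite; proper + locally quasi-finite ⟹ finite (Zariski's main theorem).
-/
import Fermat.Agent.S26.E.Defs

set_option autoImplicit false

open CategoryTheory CategoryTheory.Limits AlgebraicGeometry NeronModelInfra GoodReductionJacobian

universe u

namespace Fermat.Agent.S26.E.H80

/-- An étale ring homomorphism is quasi-finite. -/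
theorem ringHom_quasiFinite_of_etale {R S : Type u} [CommRing R] [CommRing S] (φ : R →+* S)
    (h : φ.Etale) : φ.QuasiFinite := by
  algebraize [φ]
  have : Algebra.Etale R S := h
  show Algebra.QuasiFinite R S
  infer_instance

/-- An étale morphism of schemes is locally quasi-finite. -/
theorem locallyQuasiFinite_of_etale {X Y : Scheme.{u}} (g : X ⟶ Y) [Etale g] :
    LocallyQuasiFinite g :=
  ⟨fun hU _ hV e => ringHom_quasiFinite_of_etale _ (g.etale_appLE hU hV e)⟩

/-- Cancellation: an endomorphism `φ` of a proper `f` over the base (`φ ≫ f = f`) is proper. -/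
theorem isProper_of_comp_eq {X S : Scheme.{u}} (f : X ⟶ S) [IsProper f] (φ : X ⟶ X)
    (h : φ ≫ f = f) : IsProper φ := by
  have : IsProper (φ ≫ f) := by rw [h]; infer_instance
  exact IsProper.of_comp φ f

/-- An étale endomorphism of a proper `f` over the base is finite. -/
theorem isFinite_of_etale_of_comp_eq {X S : Scheme.{u}} (f : X ⟶ S) [IsProper f] (φ : X ⟶ X)
    (h : φ ≫ f = f) [Etale φ] : IsFinite φ := by
  have := isProper_of_comp_eq f φ h
  have := locallyQuasiFinite_of_etale φ
  exact IsFinite.of_isProper_of_locallyQuasiFinite φ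

/-- (E-FIN-of) -/
theorem stmt_E_FIN_of : Stmt_E_FIN_of.{u} := by
  intro K _ A f L hL n hE
  have : IsProper f := hL.bundle.proper
  have : Etale (L.schemeNsmul n) := hE
  exact isFinite_of_etale_of_comp_eq f (L.schemeNsmul n) (L.schemeNsmul_over n)

end Fermat.Agent.S26.E.H80
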