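/-
S26 (row 25), package (E), sub-leaf E_SURJ_of (helper80):
`[n]` étale and finite ⟹ `[n]` surjective, for `f : A ⟶ Spec K` with connected fibres.

Route: the image of `[n]` is open (étale ⟹ flat and locally of finite presentation ⟹ universally
open) and closed (finite ⟹ universally closed), nonempty, and `A` is connected (it is the fibre
of `f` over the unique point of `Spec K`).
-/
import Fermat.Agent.S26.E.Defs

set_option autoImplicit false

open CategoryTheory CategoryTheory.Limits AlgebraicGeometry NeronModelInfra GoodReductionJacobian

universe u

namespace Fermat.Agent.S26.E.H80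

/-- A scheme over a field with connected fibres is connected. -/
theorem connectedSpace_of_connectedFibres (K : Type u) [Field K] {A : Scheme.{u}}
    (f : A ⟶ Spec (CommRingCat.of K))
    (h : ∀ s : Spec (CommRingCat.of K), _root_.IsConnected (f.base ⁻¹' {s})) :
    ConnectedSpace A := by
  have : Subsingleton (Spec (CommRingCat.of K)) :=
    inferInstanceAs (Subsingleton (PrimeSpectrum K))
  have : Nonempty (Spec (CommRingCat.of K)) :=
    inferInstanceAs (Nonempty (PrimeSpectrum K))
  obtain ⟨s⟩ := ‹Nonempty (Spec (CommRingCat.of K))›
  have h1 : f.base ⁻¹' {s} = Set.univ := by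
    ext x
    simp only [Set.mem_preimage, Set.mem_singleton_iff, Set.mem_univ, iff_true]
    exact Subsingleton.elim _ _
  have h2 := h s
  rw [h1] at h2
  exact connectedSpace_iff_univ.mpr h2

/-- A morphism of schemes with nonempty connected target which is open and closed as a map is
surjective, as soon as the source is nonempty. -/
theorem surjective_of_isOpenMap_of_isClosedMap {X Y : Scheme.{u}} (g : X ⟶ Y)
    [ConnectedSpace Y] [Nonempty X] (ho : IsOpenMap g) (hc : IsClosedMap g) :
    Surjective g := by
  refine ⟨?_⟩
  have hclopen : IsClopen (Set.range g) := ⟨hc.isClosed_range, ho.isOpen_range⟩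
  have hne : (Set.range g).Nonempty := Set.range_nonempty _
  have := hclopen.eq_univ hne
  exact Set.range_eq_univ.mp this

/-- A finite étale endomorphism of a connected scheme is surjective. -/
theorem surjective_of_etale_of_isFinite {X : Scheme.{u}} [ConnectedSpace X] (g : X ⟶ X)
    [Etale g] [IsFinite g] : Surjective g := by
  have : Nonempty X := ConnectedSpace.toNonempty
  exact surjective_of_isOpenMap_of_isClosedMap g g.isOpenMap g.isClosedMap

/-- (E-SURJ-of) -/
theorem stmt_E_SURJ_of : Stmt_E_SURJ_of.{u} := by
  intro K _ A f L hL n hE hF
  have : ConnectedSpace A := connectedSpace_of_connectedFibres K f hL.bundle.connectedFibres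
  have : Etale (L.schemeNsmul n) := hE
  have : IsFinite (L.schemeNsmul n) := hF
  exact surjective_of_etale_of_isFinite (L.schemeNsmul n)

end Fermat.Agent.S26.E.H80
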