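/-
S26 (row 25), package (E), sub-leaf E_COUNT_of (helper95):
`[n]` étale and finite ⟹ the number of `n`-torsion `K`-points is the rank of `[n]` at every point.

The fibre `X₀` of `[n]` over the unit section is finite étale over the algebraically closed `K`,
so `Γ(X₀) ≃ K ^ Spec Γ(X₀)`, the number of its `K`-points is its rank; its `K`-points are the
`n`-torsion points; the rank of `[n]` is locally constant and `A` is connected.
-/
import Fermat.Agent.S26.E.H95_PSurj

set_option autoImplicit false

open CategoryTheory CategoryTheory.Limits AlgebraicGeometry NeronModelInfra GoodReductionJacobian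

universe u

namespace Fermat.Agent.S26.E.H95

section Ring

/-- An étale algebra over an algebraically closed field has as many primes as its dimension. -/
theorem card_primeSpectrum_eq_finrank (K : Type u) [Field K] [IsAlgClosed K] (B : Type u)
    [CommRing B] [Algebra K B] [Algebra.Etale K B] :
    Nat.card (PrimeSpectrum B) = Module.finrank K B := by
  have : Module.Finite K B := Algebra.FormallyUnramified.finite_of_free K B
  have : IsArtinianRing B := isArtinian_of_tower K inferInstance
  have : Finite (PrimeSpectrum B) := inferInstance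
  have e := Algebra.FormallyEtale.equivPiOfIsSepClosed K B
  cases nonempty_fintype (PrimeSpectrum B)
  rw [e.toLinearEquiv.finrank_eq, Module.finrank_pi, Nat.card_eq_fintype_card]

/-- Every point of the spectrum of an étale algebra over a field is closed. -/
theorem isClosed_singleton_of_etale (K : Type u) [Field K] (B : Type u)
    [CommRing B] [Algebra K B] [Algebra.Etale K B] (x : PrimeSpectrum B) :
    IsClosed ({x} : Set (PrimeSpectrum B)) := by
  have : Module.Finite K B := Algebra.FormallyUnramified.finite_of_free K B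
  have : IsArtinianRing B := isArtinian_of_tower K inferInstance
  rw [PrimeSpectrum.isClosed_singleton_iff_isMaximal]
  exact IsArtinianRing.isMaximal_of_isPrime x.asIdeal

end Ring

section Sections

variable {K : Type u} [Field K]

/-- The sections of `p : P ⟶ Spec K`. -/
abbrev Sec {P : Scheme.{u}} (p : P ⟶ Spec (CommRingCat.of K)) : Type u :=
  {s : Spec (CommRingCat.of K) ⟶ P // s ≫ p = 𝟙 _}

/-- Sections are transported along an isomorphism. -/
noncomputable def secCongr {P Q : Scheme.{u}} (e : Q ≅ P) (p : P ⟶ Spec (CommRingCat.of K)) :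
    Sec p ≃ Sec (e.hom ≫ p) where
  toFun s := ⟨s.1 ≫ e.inv, by rw [Category.assoc, e.inv_hom_id_assoc]; exact s.2⟩
  invFun s := ⟨s.1 ≫ e.hom, by rw [Category.assoc]; exact s.2⟩
  left_inv s := Subtype.ext (by simp)
  right_inv s := Subtype.ext (by simp)

/-- The number of sections of a finite étale `K`-scheme, `K` algebraically closed, is its rank:
the case of `Spec`. -/
theorem card_sec_Spec [IsAlgClosed K] {B : CommRingCat.{u}} (φ : CommRingCat.of K ⟶ B)
    (hfin : φ.hom.Finite) (het : φ.hom.Etale) (z : Spec (CommRingCat.of K)) :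
    Nat.card (Sec (Spec.map φ)) = (Spec.map φ).finrank z := by
  have hflat : φ.hom.Flat := by
    algebraize [φ.hom]
    show Module.Flat K B
    infer_instance
  have hlft : LocallyOfFiniteType (Spec.map φ) := by
    have : IsFinite (Spec.map φ) := (IsFinite.SpecMap_iff φ).2 hfin
    infer_instance
  rw [Scheme.Hom.finrank_SpecMap_eq_finrank hfin hflat]
  algebraize [φ.hom]
  rw [Nat.card_congr (pointEquivClosedPoint (Spec.map φ))]
  have hall : closedPoints (Spec B) = Set.univ := by
    ext x
    simp only [Set.mem_univ, iff_true]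
    exact isClosed_singleton_of_etale K B x
  rw [hall, Nat.card_congr (Equiv.Set.univ _)]
  rw [← RingHom.algebraMap_toAlgebra φ.hom, RingHom.finrank_algebraMap,
    Module.rankAtStalk_eq_finrank_of_free]
  exact card_primeSpectrum_eq_finrank K B

/-- The number of sections of a finite étale `K`-scheme, `K` algebraically closed, is its
rank. -/
theorem card_sec_eq_finrank [IsAlgClosed K] {P : Scheme.{u}} (p : P ⟶ Spec (CommRingCat.of K))
    [IsFinite p] [Etale p] (z : Spec (CommRingCat.of K)) :
    Nat.card (Sec p) = p.finrank z := by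
  have : IsAffine P := isAffine_of_isAffineHom p
  obtain ⟨φ, hφ⟩ := Spec.map_surjective (P.isoSpec.inv ≫ p)
  have hp : p = P.isoSpec.hom ≫ Spec.map φ := by rw [hφ, Iso.hom_inv_id_assoc]
  have hfin' : IsFinite (Spec.map φ) := by rw [hφ]; infer_instance
  have het' : Etale (Spec.map φ) := by rw [hφ]; infer_instance
  have hfin : φ.hom.Finite := (IsFinite.SpecMap_iff φ).1 hfin'
  have het : φ.hom.Etale := (HasRingHomProperty.Spec_iff (P := @Etale)).1 het'
  subst hp
  rw [Scheme.Hom.finrank_comp_left_of_isIso, ← card_sec_Spec φ hfin het z]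
  exact (Nat.card_congr (secCongr P.isoSpec (Spec.map φ))).symm

end Sections

section Torsion

variable {K : Type u} [Field K] {A : Scheme.{u}} {f : A ⟶ Spec (CommRingCat.of K)}

/-- The `n`-torsion `K`-points are the sections of the fibre of `[n]` over the unit section. -/
noncomputable def torsionEquivSec (L : RelativeGroupLaw K f) (n : ℕ) :
    {x : SchemeHomOver (𝟙 (Spec (CommRingCat.of K))) f //
        L.IsTorsionPoint (𝟙 (Spec (CommRingCat.of K))) n x} ≃
      Sec (pullback.snd (L.schemeNsmul n) (L.one (𝟙 (Spec (CommRingCat.of K)))).1) where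
  toFun x := ⟨pullback.lift x.1.1 (𝟙 _) (by
      rw [Category.id_comp, ← nsmul_coe]
      exact congrArg Subtype.val x.2), pullback.lift_snd _ _ _⟩
  invFun s :=
    have hcomp : (s.1 ≫ pullback.fst (L.schemeNsmul n) (L.one (𝟙 _)).1) ≫ L.schemeNsmul n =
        (L.one (𝟙 (Spec (CommRingCat.of K)))).1 := by
      rw [Category.assoc, pullback.condition, ← Category.assoc, s.2, Category.id_comp]
    have hover : (s.1 ≫ pullback.fst (L.schemeNsmul n) (L.one (𝟙 _)).1) ≫ f = 𝟙 _ := by
      have h1 : (s.1 ≫ pullback.fst (L.schemeNsmul n) (L.one (𝟙 _)).1) ≫ L.schemeNsmul n ≫ f =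
          (s.1 ≫ pullback.fst (L.schemeNsmul n) (L.one (𝟙 _)).1) ≫ f :=
        congrArg (fun q => (s.1 ≫ pullback.fst (L.schemeNsmul n) (L.one (𝟙 _)).1) ≫ q)
          (L.schemeNsmul_over n)
      rw [← h1, ← Category.assoc, hcomp]
      exact (L.one (𝟙 _)).2
    ⟨⟨s.1 ≫ pullback.fst (L.schemeNsmul n) (L.one (𝟙 _)).1, hover⟩, by
      show L.nsmul (𝟙 _) n _ = L.one (𝟙 _)
      refine Subtype.ext ?_
      rw [nsmul_coe]
      exact hcomp⟩
  left_inv x := Subtype.ext (Subtype.ext (pullback.lift_fst _ _ _))
  right_inv s := Subtype.ext (pullback.hom_ext (pullback.lift_fst _ _ _)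
    ((pullback.lift_snd _ _ _).trans s.2.symm))

/-- The space of an abelian variety is connected. -/
theorem preconnectedSpace_of_bundle (hA : AbelianSchemePropertyBundle K f) :
    PreconnectedSpace A := by
  have h := (hA.connectedFibres (Classical.arbitrary _)).isPreconnected
  have huniv : f.base ⁻¹' {Classical.arbitrary (Spec (CommRingCat.of K))} = Set.univ :=
    Set.eq_univ_of_forall fun x => Subsingleton.elim _ _
  rw [huniv] at h
  exact ⟨h⟩

/-- **E_COUNT_of** with the hypotheses as instances. -/
theorem count_of [IsAlgClosed K] (L : RelativeGroupLaw K f) (hA : AbelianSchemePropertyBundle K f)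
    (n : ℕ) [Etale (L.schemeNsmul n)] [IsFinite (L.schemeNsmul n)] (y : A) :
    Nat.card {x : SchemeHomOver (𝟙 (Spec (CommRingCat.of K))) f //
        L.IsTorsionPoint (𝟙 (Spec (CommRingCat.of K))) n x} = (L.schemeNsmul n).finrank y := by
  have := preconnectedSpace_of_bundle hA
  have hlc := Scheme.Hom.isLocallyConstant_finrank (L.schemeNsmul n)
  have h1 : (L.schemeNsmul n).finrank y =
      (L.schemeNsmul n).finrank ((L.one (𝟙 (Spec (CommRingCat.of K)))).1
        (Classical.arbitrary (Spec (CommRingCat.of K)))) :=
    hlc.apply_eq_of_preconnectedSpace _ _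
  rw [h1, ← Scheme.Hom.finrank_pullback_snd, ← card_sec_eq_finrank]
  exact Nat.card_congr (torsionEquivSec L n)

/-- **E_COUNT_of** (helper14's interface). -/
theorem stmt_E_COUNT_of : Stmt_E_COUNT_of.{u} := by
  intro K _ A f L hL n het hfin y
  have := hL.algClosed
  exact count_of L hL.bundle n y

end Torsion

end Fermat.Agent.S26.E.H95
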