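/-
S26 (row 25), package (E): the unconditional outputs, from
`H14.stmt_E_ETALE` (helper14), `H80.stmt_E_FIN_of`, `H80.stmt_E_SURJ_of` (helper80),
`H95.stmt_E_PSURJ_of`, `H95.stmt_E_COUNT_of` (helper95).
-/
import Fermat.Agent.S26.E.H14_Etale
import Fermat.Agent.S26.E.H80_Fin
import Fermat.Agent.S26.E.H80_Surj
import Fermat.Agent.S26.E.H95_Count

set_option autoImplicit false

open CategoryTheory CategoryTheory.Limits AlgebraicGeometry NeronModelInfra GoodReductionJacobian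

universe u

namespace Fermat.Agent.S26.E.H95

/-- **(E-FIN)** `[n]` is finite for `n` invertible in `K`. -/
theorem stmt_E_FIN : Stmt_E_FIN.{u} :=
  stmt_E_FIN_of_parts H14.stmt_E_ETALE H80.stmt_E_FIN_of

/-- **(E-SURJ)** `[n]` is surjective for `n` invertible in `K`. -/
theorem stmt_E_SURJ : Stmt_E_SURJ.{u} :=
  stmt_E_SURJ_of_parts H14.stmt_E_ETALE H80.stmt_E_FIN_of H80.stmt_E_SURJ_of

/-- **(E-PSURJ)** `x ↦ n • x` is surjective on `K`-points for `n` invertible in `K`. -/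
theorem stmt_E_PSURJ : Stmt_E_PSURJ.{u} :=
  stmt_E_PSURJ_of_parts H14.stmt_E_ETALE H80.stmt_E_FIN_of H80.stmt_E_SURJ_of stmt_E_PSURJ_of

/-- **(E-COUNT)** `#A[n](K)` is the rank of `[n]` at every point, for `n` invertible in `K`. -/
theorem stmt_E_COUNT : Stmt_E_COUNT.{u} :=
  stmt_E_COUNT_of_parts H14.stmt_E_ETALE H80.stmt_E_FIN_of stmt_E_COUNT_of

end Fermat.Agent.S26.E.H95
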