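/-
S26 (E), helper14: the package (E) is closed.  Unconditional outputs:
`stmt_E_ETALE` (H14), `stmt_E_FIN`, `stmt_E_SURJ`, `stmt_E_PSURJ`, `stmt_E_COUNT`, and `stmt_M`.
Inputs: H14.stmt_E_ETALE, H80.stmt_E_FIN_of / stmt_E_SURJ_of, H95.stmt_E_PSURJ_of / stmt_E_COUNT_of,
H95.stmt_M_of_psurj.
-/
import Fermat.Agent.S26.E.H14_Etale
import Fermat.Agent.S26.E.H80_Fin
import Fermat.Agent.S26.E.H80_Surj
import Fermat.Agent.S26.E.H95_PSurj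
import Fermat.Agent.S26.E.H95_Count
import Fermat.Agent.S26.H95_M

set_option autoImplicit false

universe u

namespace Fermat.Agent.S26.E.H14

theorem stmt_E_FIN : Stmt_E_FIN.{u} :=
  stmt_E_FIN_of_parts stmt_E_ETALE H80.stmt_E_FIN_of

theorem stmt_E_SURJ : Stmt_E_SURJ.{u} :=
  stmt_E_SURJ_of_parts stmt_E_ETALE H80.stmt_E_FIN_of H80.stmt_E_SURJ_of

theorem stmt_E_PSURJ : Stmt_E_PSURJ.{u} :=
  stmt_E_PSURJ_of_parts stmt_E_ETALE H80.stmt_E_FIN_of H80.stmt_E_SURJ_of H95.stmt_E_PSURJ_of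

theorem stmt_E_COUNT : Stmt_E_COUNT.{u} :=
  stmt_E_COUNT_of_parts stmt_E_ETALE H80.stmt_E_FIN_of H95.stmt_E_COUNT_of

/-- **M**: `#A[n m] = #A[n] #A[m]` for `n`, `m` invertible in `K`. -/
theorem stmt_M : Fermat.Agent.S26.Stmt_M.{u} :=
  Fermat.Agent.S26.H95.stmt_M_of_psurj stmt_E_PSURJ

end Fermat.Agent.S26.E.H14
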