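/-
S26 (row 25), package (E), abstract leaf (helper13): ECKMANN–HILTON for a natural group law on
`I ↦ Hom_K(V, I)` (e.g. `V = 𝔪 / 𝔪²`, or on derivations `Der_K(C, I) = Hom_C(Ω, I)`).

If for every `K`-module `I` (in one universe) the set `V →ₗ[K] I` carries a binary operation `op I`
which is natural in `I` (post-composition with a linear map is a homomorphism) and for which `0` is
a two-sided unit, then `op I x y = x + y`.  Consequently the `n`-fold product is `n • x`, which is
bijective as soon as `n` is invertible in `K`.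
-/
import Mathlib

set_option autoImplicit false

universe u v w

namespace Fermat.Agent.S26.E.H13

variable {K : Type u} [CommRing K] {V : Type v} [AddCommGroup V] [Module K V]

/-- **Eckmann–Hilton**: a natural unital operation on `Hom_K(V, -)` is the addition. -/
theorem op_eq_add
    (op : ∀ (I : Type w) [AddCommGroup I] [Module K I], (V →ₗ[K] I) → (V →ₗ[K] I) → (V →ₗ[K] I))
    (hnat : ∀ (I J : Type w) [AddCommGroup I] [Module K I] [AddCommGroup J] [Module K J]
      (u : I →ₗ[K] J) (x y : V →ₗ[K] I), u ∘ₗ (op I x y) = op J (u ∘ₗ x) (u ∘ₗ y))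
    (hzl : ∀ (I : Type w) [AddCommGroup I] [Module K I] (x : V →ₗ[K] I), op I 0 x = x)
    (hzr : ∀ (I : Type w) [AddCommGroup I] [Module K I] (x : V →ₗ[K] I), op I x 0 = x)
    (I : Type w) [AddCommGroup I] [Module K I] (x y : V →ₗ[K] I) :
    op I x y = x + y := by
  -- work in `I × I`
  set X : V →ₗ[K] (I × I) := (LinearMap.inl K I I) ∘ₗ x with hX
  set Y : V →ₗ[K] (I × I) := (LinearMap.inr K I I) ∘ₗ y with hY
  have h1 : (LinearMap.fst K I I) ∘ₗ (op (I × I) X Y) = x := by
    rw [hnat (I × I) I (LinearMap.fst K I I) X Y]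
    have hx : (LinearMap.fst K I I) ∘ₗ X = x := by
      ext v; simp [hX]
    have hy : (LinearMap.fst K I I) ∘ₗ Y = 0 := by
      ext v; simp [hY]
    rw [hx, hy, hzr]
  have h2 : (LinearMap.snd K I I) ∘ₗ (op (I × I) X Y) = y := by
    rw [hnat (I × I) I (LinearMap.snd K I I) X Y]
    have hx : (LinearMap.snd K I I) ∘ₗ X = 0 := by
      ext v; simp [hX]
    have hy : (LinearMap.snd K I I) ∘ₗ Y = y := by
      ext v; simp [hY]
    rw [hx, hy, hzl]
  have h3 : op (I × I) X Y = X + Y := by
    ext v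
    · have := congrArg (fun f : V →ₗ[K] I => f v) h1
      simpa [hX, hY] using this
    · have := congrArg (fun f : V →ₗ[K] I => f v) h2
      simpa [hX, hY] using this
  -- apply the sum
  set s : (I × I) →ₗ[K] I := LinearMap.coprod LinearMap.id LinearMap.id with hs
  have h4 := hnat (I × I) I s X Y
  have hsX : s ∘ₗ X = x := by
    ext v; simp [hs, hX]
  have hsY : s ∘ₗ Y = y := by
    ext v; simp [hs, hY]
  rw [hsX, hsY, h3] at h4
  rw [← h4]
  ext v
  simp [hs, hX, hY]

/-- The `n`-fold product of `x` for an operation `op` with unit `0`. -/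
def npow (op : ∀ (I : Type w) [AddCommGroup I] [Module K I],
      (V →ₗ[K] I) → (V →ₗ[K] I) → (V →ₗ[K] I))
    (I : Type w) [AddCommGroup I] [Module K I] (n : ℕ) (x : V →ₗ[K] I) : V →ₗ[K] I :=
  Nat.rec 0 (fun _ ih => op I ih x) n

/-- The `n`-fold product for a natural unital operation is `n • x`. -/
theorem npow_eq_nsmul
    (op : ∀ (I : Type w) [AddCommGroup I] [Module K I], (V →ₗ[K] I) → (V →ₗ[K] I) → (V →ₗ[K] I))
    (hnat : ∀ (I J : Type w) [AddCommGroup I] [Module K I] [AddCommGroup J] [Module K J]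
      (u : I →ₗ[K] J) (x y : V →ₗ[K] I), u ∘ₗ (op I x y) = op J (u ∘ₗ x) (u ∘ₗ y))
    (hzl : ∀ (I : Type w) [AddCommGroup I] [Module K I] (x : V →ₗ[K] I), op I 0 x = x)
    (hzr : ∀ (I : Type w) [AddCommGroup I] [Module K I] (x : V →ₗ[K] I), op I x 0 = x)
    (I : Type w) [AddCommGroup I] [Module K I] (n : ℕ) (x : V →ₗ[K] I) :
    npow op I n x = n • x := by
  induction n with
  | zero => simp [npow]
  | succ n ih =>
    have : npow op I (n + 1) x = op I (npow op I n x) x := rfl
    rw [this, ih, op_eq_add op hnat hzl hzr, succ_nsmul]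

/-- If `n` is invertible in `K`, the `n`-fold product is bijective. -/
theorem npow_bijective
    (op : ∀ (I : Type w) [AddCommGroup I] [Module K I], (V →ₗ[K] I) → (V →ₗ[K] I) → (V →ₗ[K] I))
    (hnat : ∀ (I J : Type w) [AddCommGroup I] [Module K I] [AddCommGroup J] [Module K J]
      (u : I →ₗ[K] J) (x y : V →ₗ[K] I), u ∘ₗ (op I x y) = op J (u ∘ₗ x) (u ∘ₗ y))
    (hzl : ∀ (I : Type w) [AddCommGroup I] [Module K I] (x : V →ₗ[K] I), op I 0 x = x)
    (hzr : ∀ (I : Type w) [AddCommGroup I] [Module K I] (x : V →ₗ[K] I), op I x 0 = x)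
    (I : Type w) [AddCommGroup I] [Module K I] (n : ℕ) (hn : IsUnit (n : K)) :
    Function.Bijective (npow op I n : (V →ₗ[K] I) → (V →ₗ[K] I)) := by
  have hfun : (npow op I n : (V →ₗ[K] I) → (V →ₗ[K] I)) = fun x => (n : K) • x := by
    funext x
    rw [npow_eq_nsmul op hnat hzl hzr]
    exact (Nat.cast_smul_eq_nsmul K n x).symm
  rw [hfun]
  obtain ⟨c, hc⟩ := hn
  constructor
  · intro x y hxy
    have h := congrArg (fun z => (↑c⁻¹ : K) • z) hxy
    simp only [smul_smul, ← hc, Units.inv_mul, one_smul] at h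
    exact h
  · intro y
    refine ⟨(↑c⁻¹ : K) • y, ?_⟩
    simp only [smul_smul, ← hc, Units.mul_inv, one_smul]

end Fermat.Agent.S26.E.H13
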